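import Mathlib
import Fermat.Agent.S23.R2_Esymm

/-!
# S16, package [CONJ] (coordinator helper3): conjugates of a form on `Γ₀(p)` under `SL(2, ℤ)`,
their `t`-expansions (`t = exp (2 π i z / p)`), and the `q`-expansion of the elementary symmetric
functions `S23.esymmMF f i ∈ M_{k i}(SL(2, ℤ))`.

Vocabulary (definitions only; every leaf is a `def St… : Prop` below and is DONE when a
`theorem … : St…` is on main):

* `rep p x` : representatives of `Γ₀(p) \ SL(2, ℤ)`, indexed by `x : OnePoint (ZMod p)`: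
  `rep p ∞ = 1`, `rep p j = S * T ^ j.val`;
* `cj p k f x := f ∣[k] rep p x` : the conjugates of `f`;
* `tExp p g := UpperHalfPlane.qExpansion p g` : the expansion in `t = exp (2 π i z / p)`;
* `Nice p g` : `g` is holomorphic, bounded at `i∞` and `p`-periodic (so `tExp p` is additive and
  multiplicative on such functions, by Mathlib's `qExpansion_add`, `qExpansion_mul`);
* `conjSeries p a j` : the series `-(1/p) ∑ a_{p n} ζ^{j n} t^n` (`ζ = exp (2 π i / p)`).
-/

set_option autoImplicit false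

open UpperHalfPlane ModularForm CongruenceSubgroup

open scoped MatrixGroups ModularForm Manifold

noncomputable section

namespace Fermat.Agent.S16x.Conj

/-- Representatives of `Γ₀(p) \ SL(2, ℤ)`: `1` and `S T^j`, `0 ≤ j < p`. -/
def rep (p : ℕ) : OnePoint (ZMod p) → SL(2, ℤ)
  | none => 1
  | some j => ModularGroup.S * ModularGroup.T ^ j.val

/-- The conjugates of `f` (weight `k`). -/
def cj (p : ℕ) (k : ℤ) (f : ℍ → ℂ) (x : OnePoint (ZMod p)) : ℍ → ℂ :=
  f ∣[k] rep p x

/-- The expansion in `t = exp (2 π i z / p)`. -/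
def tExp (p : ℕ) (g : ℍ → ℂ) : PowerSeries ℂ :=
  UpperHalfPlane.qExpansion (p : ℝ) g

/-- Holomorphic, bounded at `i∞`, `p`-periodic. -/
def Nice (p : ℕ) (g : ℍ → ℂ) : Prop :=
  Function.Periodic (g ∘ ofComplex) (p : ℝ) ∧ MDiff g ∧ IsBoundedAtImInfty g

/-- The root of unity `ζ_p = exp (2 π i / p)`. -/
def zeta (p : ℕ) : ℂ := Complex.exp (2 * Real.pi * Complex.I / p)

/-- `-(1/p) ∑ a_{p n} ζ^{j n} t^n`: the `t`-expansion of `G ∣ S T^j` for `G` of weight `2`
with `q`-expansion `a`. -/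
def conjSeries (p : ℕ) (a : PowerSeries ℂ) (j : ℕ) : PowerSeries ℂ :=
  PowerSeries.mk fun n => -(1 / (p : ℂ)) * PowerSeries.coeff (p * n) a * zeta p ^ (j * n)

/-- `p^{-k} ∑ a_n ζ^{j n} t^n`: the `t`-expansion of `F(p ·) ∣ S T^j` for `F` of level one and
weight `k` with `q`-expansion `a`. -/
def pushSeries (p : ℕ) (k : ℤ) (a : PowerSeries ℂ) (j : ℕ) : PowerSeries ℂ :=
  PowerSeries.mk fun n => ((p : ℂ) ^ k)⁻¹ * PowerSeries.coeff n a * zeta p ^ (j * n)

/-! ### The leaves -/

section Leaves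

variable (p : ℕ) [Fact p.Prime]

/-- **[C1] cosets**: the translates entering `S23.esymmMF` are exactly the `p + 1` conjugates
`cj p k f x`. -/
def StCoset : Prop :=
  ∀ (k : ℤ) (f : ModularForm (Gamma0 p) k) (i : ℕ),
    (⇑(Fermat.Agent.S23.esymmMF f i) : ℍ → ℂ) =
      ∑ s ∈ Finset.powersetCard i (Finset.univ : Finset (OnePoint (ZMod p))),
        ∏ x ∈ s, cj p k f x

/-- **[C2] niceness of the conjugates**. -/
def StNice : Prop :=
  ∀ (k : ℤ) (f : ModularForm (Gamma0 p) k) (x : OnePoint (ZMod p)), Nice p (cj p k f x)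

/-- **[C3] ring-homomorphism property of `tExp`** on nice functions (finite sums and products;
`Nice` itself is stable). -/
def StRing : Prop :=
  (∀ g h : ℍ → ℂ, Nice p g → Nice p h → Nice p (g + h) ∧ tExp p (g + h) = tExp p g + tExp p h) ∧
  (∀ g h : ℍ → ℂ, Nice p g → Nice p h → Nice p (g * h) ∧ tExp p (g * h) = tExp p g * tExp p h) ∧
  (∀ (c : ℂ) (g : ℍ → ℂ), Nice p g → Nice p (c • g) ∧ tExp p (c • g) = c • tExp p g) ∧
  (Nice p (1 : ℍ → ℂ) ∧ tExp p (1 : ℍ → ℂ) = 1) ∧
  ∀ (ι : Type) (s : Finset ι) (g : ι → ℍ → ℂ), (∀ x ∈ s, Nice p (g x)) →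
    tExp p (∏ x ∈ s, g x) = ∏ x ∈ s, tExp p (g x) ∧
    tExp p (∑ x ∈ s, g x) = ∑ x ∈ s, tExp p (g x)

/-- **[C4] descent**: for a `1`-periodic nice function the `t`-expansion is the `q`-expansion
with `q = t^p`. -/
def StDescent : Prop :=
  ∀ g : ℍ → ℂ, Function.Periodic (g ∘ ofComplex) (1 : ℝ) → MDiff g → IsBoundedAtImInfty g →
    tExp p g = PowerSeries.expand p (Fact.out : p.Prime).ne_zero (UpperHalfPlane.qExpansion 1 g)

/-- **[C5] MAIN**: the `q`-expansion of `e_i(f)` is the `i`-th elementary symmetric function of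
the `t`-expansions of the `p + 1` conjugates (with `q = t^p`). -/
def StMain : Prop :=
  ∀ (k : ℤ) (f : ModularForm (Gamma0 p) k) (i : ℕ),
    PowerSeries.expand p (Fact.out : p.Prime).ne_zero
        (UpperHalfPlane.qExpansion 1 (Fermat.Agent.S23.esymmMF f i)) =
      ((Finset.univ : Finset (OnePoint (ZMod p))).val.map
        (fun x => tExp p (cj p k f x))).esymm i

/-- **[C5'] MAIN, coefficientwise** (the shape asked for by [UPL]). -/
def StMainCoeff : Prop :=
  ∀ (k : ℤ) (f : ModularForm (Gamma0 p) k) (i n : ℕ),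
    (UpperHalfPlane.qExpansion 1 (Fermat.Agent.S23.esymmMF f i)).coeff n =
      PowerSeries.coeff (p * n) (((Finset.univ : Finset (OnePoint (ZMod p))).val.map
        (fun x => tExp p (cj p k f x))).esymm i)

/-- **[C6] the conjugate at `∞`**. -/
def StInfty : Prop :=
  ∀ (k : ℤ) (f : ModularForm (Gamma0 p) k),
    tExp p (cj p k f (OnePoint.infty)) =
      PowerSeries.expand p (Fact.out : p.Prime).ne_zero (UpperHalfPlane.qExpansion 1 f)

/-- **[C7] weight `2`**: `G ∣ S T^j = -(1/p) (U_p G)((z + j)/p)` (trace to level one is `0`). -/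
def StTwo : Prop :=
  ∀ (G : ModularForm (Gamma0 p) 2) (j : ZMod p),
    tExp p (cj p 2 G (OnePoint.some j)) = conjSeries p (UpperHalfPlane.qExpansion 1 G) j.val

/-- **[C8] push-forward of level one forms**: for `F` of level one and weight `k` there is
`F_p ∈ M_k(Γ₀(p))`, `F_p(z) = F(p z)`, with `q`-expansion `a(q^p)` and conjugates
`p^{-k} F((z + j)/p)`. -/
def StPush : Prop :=
  ∀ (k : ℤ) (F : ModularForm 𝒮ℒ k), ∃ Fp : ModularForm (Gamma0 p) k,
    (∀ z : ℍ, Fp z = F ⟨(p : ℂ) * z, by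
        have hp : (0 : ℝ) < p := Nat.cast_pos.mpr (Fact.out : p.Prime).pos
        simpa using mul_pos hp z.im_pos⟩) ∧
    UpperHalfPlane.qExpansion 1 Fp =
      PowerSeries.expand p (Fact.out : p.Prime).ne_zero (UpperHalfPlane.qExpansion 1 F) ∧
    ∀ j : ZMod p, tExp p (cj p k Fp (OnePoint.some j)) =
      pushSeries p k (UpperHalfPlane.qExpansion 1 F) j.val

/-- **[C9] algebra of conjugates**: conjugation is compatible with products, sums, scalars, and
is trivial on level one forms. -/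
def StAlg : Prop :=
  (∀ (k l : ℤ) (f g : ℍ → ℂ) (x : OnePoint (ZMod p)),
      cj p (k + l) (f * g) x = cj p k f x * cj p l g x) ∧
  (∀ (k : ℤ) (f g : ℍ → ℂ) (x : OnePoint (ZMod p)),
      cj p k (f + g) x = cj p k f x + cj p k g x) ∧
  (∀ (k : ℤ) (c : ℂ) (f : ℍ → ℂ) (x : OnePoint (ZMod p)),
      cj p k (c • f) x = c • cj p k f x) ∧
  (∀ (k : ℤ) (F : ModularForm 𝒮ℒ k) (x : OnePoint (ZMod p)), cj p k F x = F)

end Leaves

end Fermat.Agent.S16x.Conj
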