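import Mathlib
import Fermat.Agent.S16x.Conj.Defs
import Fermat.Agent.S23.R5_Scale
import Fermat.Agent.S24.H12_CuspExp

/-!
# S16 / package CONJ (helper2): leaf [C8], push-forward of level one forms

For `F` of level one and weight `k`, `Fp := S23.scaleMF p F` is the form `z ↦ F (p z)` on
`Γ₀(p)`. Its conjugates are `(Fp ∣[k] S T^j)(z) = p^{-k} F ((z + j) / p)`, with `t`-expansion
`p^{-k} ∑ a_n ζ^{j n} t^n`.
-/

set_option autoImplicit false

open UpperHalfPlane ModularForm CongruenceSubgroup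

open scoped MatrixGroups ModularForm Manifold

noncomputable section

namespace Fermat.Agent.S16x.Conj.H2

variable (p : ℕ) [Fact p.Prime]

theorem h2_p_pos : (0 : ℝ) < p := Nat.cast_pos.mpr (Fact.out : p.Prime).pos

theorem h2_p_ne : (p : ℂ) ≠ 0 := Nat.cast_ne_zero.mpr (Fact.out : p.Prime).ne_zero

/-- The point `w / p`. -/
def divP (w : ℍ) : ℍ :=
  ⟨(w : ℂ) / p, by
    have h : ((w : ℂ) / (p : ℂ)).im = w.im / p := by
      rw [show ((p : ℂ)) = ((p : ℝ) : ℂ) by norm_cast, Complex.div_ofReal_im]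
      rfl
    rw [h]
    exact div_pos w.im_pos (h2_p_pos p)⟩

theorem coe_divP (w : ℍ) : ((divP p w : ℍ) : ℂ) = (w : ℂ) / p := rfl

/-- The point `(z + j) / p`. -/
def pushPt (j : ℕ) (z : ℍ) : ℍ := divP p (((j : ℝ)) +ᵥ z)

theorem coe_pushPt (j : ℕ) (z : ℍ) : ((pushPt p j z : ℍ) : ℂ) = ((z : ℂ) + j) / p := by
  rw [pushPt, coe_divP, UpperHalfPlane.coe_vadd]
  push_cast
  ring

/-- `F (S • u) = u ^ k * F u` for `F` of level one. -/
theorem h2_levelOne_S {k : ℤ} (F : ModularForm 𝒮ℒ k) (u : ℍ) :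
    F (ModularGroup.S • u) = (u : ℂ) ^ k * F u := by
  have h1 : (⇑F : ℍ → ℂ) ∣[k] ModularGroup.S = ⇑F :=
    SlashInvariantForm.slash_action_eqn F _ ⟨ModularGroup.S, rfl⟩
  have h2 := congrFun h1 u
  rw [SL_slash_apply, ModularGroup.denom_S] at h2
  have hu : (u : ℂ) ≠ 0 := u.ne_zero
  rw [← h2, mul_comm, mul_assoc, ← zpow_add₀ hu]
  simp

/-- `p (S • w) = S • (w / p)`. -/
theorem h2_scaleN_S (w : ℍ) :
    Fermat.Agent.S23.scaleN p (ModularGroup.S • w) = ModularGroup.S • divP p w := by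
  apply UpperHalfPlane.ext
  rw [Fermat.Agent.S23.coe_scaleN, modular_S_smul, modular_S_smul]
  have hw : (w : ℂ) ≠ 0 := w.ne_zero
  have hp := h2_p_ne p
  simp only [coe_divP]
  change (p : ℂ) * (-(w : ℂ))⁻¹ = (-((w : ℂ) / p))⁻¹
  field_simp

/-- `(Fp ∣[k] S)(w) = p^{-k} F (w / p)`. -/
theorem h2_slash_S {k : ℤ} (F : ModularForm 𝒮ℒ k) (w : ℍ) :
    ((⇑(Fermat.Agent.S23.scaleMF p F) : ℍ → ℂ) ∣[k] ModularGroup.S) w =
      ((p : ℂ) ^ k)⁻¹ * F (divP p w) := by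
  rw [SL_slash_apply, ModularGroup.denom_S, Fermat.Agent.S23.scaleMF_apply, h2_scaleN_S,
    h2_levelOne_S, coe_divP]
  have hw : (w : ℂ) ≠ 0 := w.ne_zero
  have hp := h2_p_ne p
  rw [div_zpow, zpow_neg]
  have h1 : (w : ℂ) ^ k ≠ 0 := zpow_ne_zero _ hw
  have h2 : (p : ℂ) ^ k ≠ 0 := zpow_ne_zero _ hp
  field_simp

theorem h2_denom_T_pow (j : ℕ) (z : ℍ) : denom (ModularGroup.T ^ j : SL(2, ℤ)) z = 1 := by
  rw [ModularGroup.denom_apply]
  have h := ModularGroup.coe_T_zpow (j : ℤ)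
  rw [zpow_natCast] at h
  have h10 : (ModularGroup.T ^ j : SL(2, ℤ)) 1 0 = 0 := by
    rw [h]; rfl
  have h11 : (ModularGroup.T ^ j : SL(2, ℤ)) 1 1 = 1 := by
    rw [h]; rfl
  rw [h10, h11]
  simp

theorem h2_T_pow_smul (j : ℕ) (z : ℍ) :
    (ModularGroup.T ^ j : SL(2, ℤ)) • z = ((j : ℝ)) +ᵥ z := by
  have h := modular_T_zpow_smul z (j : ℤ)
  rw [zpow_natCast] at h
  rw [h]
  simp

/-- **The conjugates of `F(p z)`**: `(Fp ∣[k] S T^j)(z) = p^{-k} F ((z + j) / p)`. -/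
theorem h2_push_slash {k : ℤ} (F : ModularForm 𝒮ℒ k) (j : ℕ) (z : ℍ) :
    ((⇑(Fermat.Agent.S23.scaleMF p F) : ℍ → ℂ) ∣[k] (ModularGroup.S * ModularGroup.T ^ j)) z =
      ((p : ℂ) ^ k)⁻¹ * F (pushPt p j z) := by
  rw [SlashAction.slash_mul, SL_slash_apply, h2_denom_T_pow, h2_T_pow_smul, h2_slash_S, one_zpow,
    mul_one]
  rfl

/-! ### The `t`-expansion of the conjugates -/

/-- `𝕢 1 ((z + j) / p) = ζ^j * 𝕢 p z`. -/
theorem h2_qParam_pushPt (j : ℕ) (z : ℍ) :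
    Function.Periodic.qParam 1 ((pushPt p j z : ℍ) : ℂ) =
      zeta p ^ j * Function.Periodic.qParam (p : ℝ) (z : ℂ) := by
  rw [coe_pushPt]
  simp only [Function.Periodic.qParam, zeta]
  rw [← Complex.exp_nat_mul, ← Complex.exp_add]
  congr 1
  have hp := h2_p_ne p
  push_cast
  field_simp
  ring

/-- The per-`j` `HasSum` form of the `t`-expansion of `p^{-k} F ((z + j) / p)`. -/
theorem h2_push_hasSum {k : ℤ} (F : ModularForm 𝒮ℒ k) (j : ℕ) (z : ℍ) :
    HasSum (fun n : ℕ => PowerSeries.coeff n (pushSeries p k (qExpansion 1 F) j) •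
        Function.Periodic.qParam (p : ℝ) (z : ℂ) ^ n)
      (((p : ℂ) ^ k)⁻¹ * F (pushPt p j z)) := by
  have h1 := UpperHalfPlane.hasSum_qExpansion one_pos (Fermat.Agent.S23.periodic_levelOne F)
    (ModularFormClass.holo F) (ModularFormClass.bdd_at_infty F) (pushPt p j z)
  have h2 := h1.mul_left (((p : ℂ) ^ k)⁻¹)
  have h3 : (fun n : ℕ => PowerSeries.coeff n (pushSeries p k (qExpansion 1 F) j) •
        Function.Periodic.qParam (p : ℝ) (z : ℂ) ^ n) =
      fun i => ((p : ℂ) ^ k)⁻¹ * (PowerSeries.coeff i) (qExpansion 1 ⇑F) •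
        Function.Periodic.qParam 1 ↑(pushPt p j z) ^ i := by
    funext n
    rw [pushSeries, PowerSeries.coeff_mk, h2_qParam_pushPt, mul_pow, ← pow_mul]
    simp only [smul_eq_mul]
    ring
  rw [h3]
  exact h2

/-- The per-`j` `HasSum` form for the conjugate itself (shape asked for by the trace trick). -/
theorem h2_push_slash_hasSum {k : ℤ} (F : ModularForm 𝒮ℒ k) (j : ℕ) (z : ℍ) :
    HasSum (fun n : ℕ => ((p : ℂ) ^ k)⁻¹ * (qExpansion 1 F).coeff n * zeta p ^ (j * n) *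
        Function.Periodic.qParam (p : ℝ) (z : ℂ) ^ n)
      (((⇑(Fermat.Agent.S23.scaleMF p F) : ℍ → ℂ) ∣[k]
        (ModularGroup.S * ModularGroup.T ^ j)) z) := by
  rw [h2_push_slash]
  have h := h2_push_hasSum p F j z
  simpa [pushSeries, PowerSeries.coeff_mk, smul_eq_mul] using h

theorem h2_pushPt_vadd (j : ℕ) (z : ℍ) :
    pushPt p j ((p : ℝ) +ᵥ z) = (1 : ℝ) +ᵥ pushPt p j z := by
  apply UpperHalfPlane.ext
  rw [UpperHalfPlane.coe_vadd, coe_pushPt, coe_pushPt, UpperHalfPlane.coe_vadd]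
  have hp := h2_p_ne p
  push_cast
  field_simp
  ring

/-- The conjugates of `F(p z)` are nice (with period `p`). -/
theorem h2_push_nice {k : ℤ} (F : ModularForm 𝒮ℒ k) (j : ℕ) :
    Fermat.Agent.S24.G4.Nice (p : ℝ)
      ((⇑(Fermat.Agent.S23.scaleMF p F) : ℍ → ℂ) ∣[k] (ModularGroup.S * ModularGroup.T ^ j)) := by
  refine ⟨Fermat.Agent.S24.G4.periodic_comp_ofComplex_of_vadd fun z => ?_, ?_, ?_⟩
  · rw [h2_push_slash, h2_push_slash, h2_pushPt_vadd]
    congr 1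
    exact Fermat.Agent.S24.G4.vadd_of_periodic_comp_ofComplex
      (Fermat.Agent.S23.periodic_levelOne F) _
  · exact (ModularFormClass.holo (Fermat.Agent.S23.scaleMF p F)).slash k _
  · refine isBoundedAtImInfty_of_hasSum_qExpansion (h2_p_pos p)
      (c := fun n => PowerSeries.coeff n (pushSeries p k (qExpansion 1 F) j)) fun τ => ?_
    rw [h2_push_slash]
    exact h2_push_hasSum p F j τ

/-- The `t`-expansion of the conjugates of `F(p z)`. -/
theorem h2_tExp_push {k : ℤ} (F : ModularForm 𝒮ℒ k) (j : ℕ) :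
    tExp p ((⇑(Fermat.Agent.S23.scaleMF p F) : ℍ → ℂ) ∣[k]
        (ModularGroup.S * ModularGroup.T ^ j)) =
      pushSeries p k (qExpansion 1 F) j := by
  refine Fermat.Agent.S24.G4.qExpansion_eq_of_hasSum (h2_p_pos p) (h2_push_nice p F j) fun τ => ?_
  rw [h2_push_slash]
  exact h2_push_hasSum p F j τ

/-- The `q`-expansion of `F(p z)`. -/
theorem h2_qExpansion_scaleMF {k : ℤ} (F : ModularForm 𝒮ℒ k) :
    qExpansion 1 (Fermat.Agent.S23.scaleMF p F) =
      PowerSeries.expand p (Fact.out : p.Prime).ne_zero (qExpansion 1 F) := by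
  ext n
  rw [PowerSeries.coeff_expand]
  exact Fermat.Agent.S23.qCoeff_scaleMF p F n

/-- **[C8]**, verbatim. -/
theorem stPush : StPush p := by
  intro k F
  refine ⟨Fermat.Agent.S23.scaleMF p F, fun z => ?_, h2_qExpansion_scaleMF p F, fun j => ?_⟩
  · rw [Fermat.Agent.S23.scaleMF_apply]
    congr 1
    apply UpperHalfPlane.ext
    rw [Fermat.Agent.S23.coe_scaleN]
  · exact h2_tExp_push p F j.val

example (p : ℕ) [Fact p.Prime] : Fermat.Agent.S16x.Conj.StPush p := stPush p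

end Fermat.Agent.S16x.Conj.H2
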