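import Fermat.Agent.S16x.Conj.Defs

/-!
# S16, package [CONJ], leaf [C1]: `StCoset p`

The translates entering `S23.esymmMF f i` (indexed by `𝒮ℒ ⧸ Γ₀(p)`) are exactly the `p + 1`
conjugates `cj p k f x = f ∣[k] rep p x`, `x : OnePoint (ZMod p)`: the map
`x ↦ class of (rep p x)⁻¹` is a bijection `OnePoint (ZMod p) ≃ 𝒮ℒ ⧸ Γ₀(p)`.
-/

set_option autoImplicit false

open UpperHalfPlane ModularForm CongruenceSubgroup SlashInvariantForm

open scoped MatrixGroups ModularForm Manifold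

noncomputable section

namespace Fermat.Agent.S16x.Conj.H9

/-- Entries of `S * T ^ n`. -/
theorem coe_S_mul_T_pow (n : ℕ) :
    ((ModularGroup.S * ModularGroup.T ^ n : SL(2, ℤ)) : Matrix (Fin 2) (Fin 2) ℤ)
      = !![0, -1; 1, (n : ℤ)] := by
  rw [Matrix.SpecialLinearGroup.coe_mul, ← zpow_natCast, ModularGroup.coe_T_zpow,
    ModularGroup.coe_S]
  ext i j
  fin_cases i <;> fin_cases j <;> simp [Matrix.mul_apply, Fin.sum_univ_two]

/-- Entries of `(S * T ^ n)⁻¹`. -/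
theorem coe_S_mul_T_pow_inv (n : ℕ) :
    (((ModularGroup.S * ModularGroup.T ^ n)⁻¹ : SL(2, ℤ)) : Matrix (Fin 2) (Fin 2) ℤ)
      = !![(n : ℤ), 1; -1, 0] := by
  rw [Matrix.SpecialLinearGroup.coe_inv, coe_S_mul_T_pow, Matrix.adjugate_fin_two_of, neg_neg]

set_option linter.unusedSectionVars false

variable (p : ℕ) [Fact p.Prime]

/-- `rep p x * (rep p y)⁻¹ ∈ Γ₀(p)` only for `x = y`. -/
theorem rep_mul_inv_mem_iff (x y : OnePoint (ZMod p)) :
    rep p x * (rep p y)⁻¹ ∈ Gamma0 p ↔ x = y := by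
  have : NeZero p := ⟨(Fact.out : p.Prime).ne_zero⟩
  have h1 : ((1 : ℤ) : ZMod p) ≠ 0 := by
    have : Fact (1 < p) := ⟨(Fact.out : p.Prime).one_lt⟩
    simp
  constructor
  · intro h
    rw [Gamma0_mem] at h
    rcases x with _ | i <;> rcases y with _ | j
    · rfl
    · exfalso
      have : ((rep p none * (rep p (some j))⁻¹ : SL(2, ℤ)) : Matrix (Fin 2) (Fin 2) ℤ) 1 0
          = -1 := by
        show (((1 : SL(2, ℤ)) * (ModularGroup.S * ModularGroup.T ^ j.val)⁻¹ : SL(2, ℤ)) :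
          Matrix (Fin 2) (Fin 2) ℤ) 1 0 = -1
        rw [one_mul, coe_S_mul_T_pow_inv]
        simp
      rw [this] at h
      apply h1
      have h' : ((-1 : ℤ) : ZMod p) = 0 := h
      rw [Int.cast_neg, neg_eq_zero] at h'
      exact h'
    · exfalso
      have : ((rep p (some i) * (rep p none)⁻¹ : SL(2, ℤ)) : Matrix (Fin 2) (Fin 2) ℤ) 1 0
          = 1 := by
        show (((ModularGroup.S * ModularGroup.T ^ i.val) * (1 : SL(2, ℤ))⁻¹ : SL(2, ℤ)) :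
          Matrix (Fin 2) (Fin 2) ℤ) 1 0 = 1
        rw [inv_one, mul_one, coe_S_mul_T_pow]
        simp
      rw [this] at h
      exact h1 h
    · have : ((rep p (some i) * (rep p (some j))⁻¹ : SL(2, ℤ)) :
          Matrix (Fin 2) (Fin 2) ℤ) 1 0 = (j.val : ℤ) - (i.val : ℤ) := by
        show (((ModularGroup.S * ModularGroup.T ^ i.val) *
          (ModularGroup.S * ModularGroup.T ^ j.val)⁻¹ : SL(2, ℤ)) :
          Matrix (Fin 2) (Fin 2) ℤ) 1 0 = _
        rw [Matrix.SpecialLinearGroup.coe_mul, coe_S_mul_T_pow, coe_S_mul_T_pow_inv]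
        simp [Matrix.mul_apply, Fin.sum_univ_two]
        ring
      rw [this] at h
      have h' : (j : ZMod p) - i = 0 := by
        have := h
        push_cast at this
        simpa [ZMod.natCast_zmod_val] using this
      rw [sub_eq_zero.mp h']
  · rintro rfl
    rw [mul_inv_cancel]
    exact (Gamma0 p).one_mem

/-- Every element of `SL(2, ℤ)` lies in `Γ₀(p) * rep p x` for some `x`. -/
theorem exists_mul_rep_inv_mem (g : SL(2, ℤ)) :
    ∃ x : OnePoint (ZMod p), g * (rep p x)⁻¹ ∈ Gamma0 p := by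
  have : NeZero p := ⟨(Fact.out : p.Prime).ne_zero⟩
  by_cases hc : ((g 1 0 : ℤ) : ZMod p) = 0
  · refine ⟨none, ?_⟩
    show g * (1 : SL(2, ℤ))⁻¹ ∈ Gamma0 p
    rw [inv_one, mul_one, Gamma0_mem]
    exact hc
  · refine ⟨some (((g 1 1 : ℤ) : ZMod p) * ((g 1 0 : ℤ) : ZMod p)⁻¹), ?_⟩
    set j : ZMod p := ((g 1 1 : ℤ) : ZMod p) * ((g 1 0 : ℤ) : ZMod p)⁻¹ with hj
    show g * (ModularGroup.S * ModularGroup.T ^ j.val)⁻¹ ∈ Gamma0 p
    rw [Gamma0_mem]
    have : ((g * (ModularGroup.S * ModularGroup.T ^ j.val)⁻¹ : SL(2, ℤ)) :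
        Matrix (Fin 2) (Fin 2) ℤ) 1 0 = g 1 0 * (j.val : ℤ) - g 1 1 := by
      rw [Matrix.SpecialLinearGroup.coe_mul, coe_S_mul_T_pow_inv]
      simp [Matrix.mul_apply, Fin.sum_univ_two]
      ring
    rw [this]
    push_cast
    rw [ZMod.natCast_zmod_val, hj, mul_comm ((g 1 1 : ℤ) : ZMod p), ← mul_assoc,
      mul_inv_cancel₀ hc, one_mul, sub_self]

/-- The class of `(rep p x)⁻¹` in `𝒮ℒ ⧸ Γ₀(p)`. -/
def cosetOf (x : OnePoint (ZMod p)) :
    𝒮ℒ ⧸ ((Gamma0 p : Subgroup (GL (Fin 2) ℝ))).subgroupOf 𝒮ℒ :=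
  QuotientGroup.mk (⟨Matrix.SpecialLinearGroup.mapGL ℝ (rep p x)⁻¹, ⟨_, rfl⟩⟩ : 𝒮ℒ)

theorem quotientFunc_cosetOf {k : ℤ} (f : ModularForm (Gamma0 p) k) (x : OnePoint (ZMod p)) :
    quotientFunc f (cosetOf p x) = cj p k f x := by
  show quotientFunc f (⟦_⟧) = _
  rw [quotientFunc_mk]
  show (f : ℍ → ℂ) ∣[k] (Matrix.SpecialLinearGroup.mapGL ℝ (rep p x)⁻¹)⁻¹ = (f : ℍ → ℂ) ∣[k] rep p x
  rw [map_inv, inv_inv, ModularForm.SL_slash]
  rfl

theorem mapGL_mem_Gamma0_iff (g : SL(2, ℤ)) :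
    Matrix.SpecialLinearGroup.mapGL ℝ g ∈ (Gamma0 p : Subgroup (GL (Fin 2) ℝ)) ↔
      g ∈ Gamma0 p := by
  constructor
  · rintro ⟨h, hh, he⟩
    have := Matrix.SpecialLinearGroup.mapGL_injective (R := ℤ) (S := ℝ) he
    rwa [← this]
  · intro h
    exact ⟨g, h, rfl⟩

theorem cosetOf_injective : Function.Injective (cosetOf p) := by
  intro x y h
  unfold cosetOf at h
  rw [QuotientGroup.eq, Subgroup.mem_subgroupOf] at h
  have h2 : (Matrix.SpecialLinearGroup.mapGL ℝ (rep p x * (rep p y)⁻¹) : GL (Fin 2) ℝ)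
      ∈ (Gamma0 p : Subgroup (GL (Fin 2) ℝ)) := by
    convert h using 1
    simp [map_mul, map_inv]
  exact (rep_mul_inv_mem_iff p x y).mp ((mapGL_mem_Gamma0_iff p _).mp h2)

theorem cosetOf_surjective : Function.Surjective (cosetOf p) := by
  intro q
  induction q using QuotientGroup.induction_on with
  | H r =>
    obtain ⟨_, ⟨g, rfl⟩⟩ := r
    obtain ⟨x, hx⟩ := exists_mul_rep_inv_mem p g⁻¹
    refine ⟨x, ?_⟩
    unfold cosetOf
    rw [QuotientGroup.eq, Subgroup.mem_subgroupOf]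
    have h2 : (Matrix.SpecialLinearGroup.mapGL ℝ ((g⁻¹ * (rep p x)⁻¹)⁻¹) : GL (Fin 2) ℝ)
        ∈ (Gamma0 p : Subgroup (GL (Fin 2) ℝ)) :=
      (mapGL_mem_Gamma0_iff p _).mpr ((Gamma0 p).inv_mem hx)
    convert h2 using 1
    simp [map_mul, map_inv]

/-- The bijection `OnePoint (ZMod p) ≃ 𝒮ℒ ⧸ Γ₀(p)`. -/
def cosetEquiv : OnePoint (ZMod p) ≃
    𝒮ℒ ⧸ ((Gamma0 p : Subgroup (GL (Fin 2) ℝ))).subgroupOf 𝒮ℒ :=
  Equiv.ofBijective (cosetOf p) ⟨cosetOf_injective p, cosetOf_surjective p⟩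

/-- **[C1]** `StCoset p`. -/
theorem stCoset : StCoset p := by
  classical
  intro k f i
  let _ : Fintype (𝒮ℒ ⧸ ((Gamma0 p : Subgroup (GL (Fin 2) ℝ))).subgroupOf 𝒮ℒ) :=
    Fintype.ofEquiv _ (cosetEquiv p)
  rw [Fermat.Agent.S23.coe_esymmMF, Fermat.Agent.S23.esymmFun_eq]
  have huniv : (Finset.univ : Finset (𝒮ℒ ⧸ ((Gamma0 p : Subgroup (GL (Fin 2) ℝ))).subgroupOf 𝒮ℒ))
      = (Finset.univ : Finset (OnePoint (ZMod p))).map (cosetEquiv p).toEmbedding := by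
    rw [Finset.map_univ_equiv]
  rw [huniv, Finset.powersetCard_map, Finset.sum_map]
  refine Finset.sum_congr rfl fun s _ => ?_
  show ∏ q ∈ s.map (cosetEquiv p).toEmbedding, quotientFunc f q = _
  rw [Finset.prod_map]
  refine Finset.prod_congr rfl fun x _ => ?_
  exact quotientFunc_cosetOf p f x

end Fermat.Agent.S16x.Conj.H9
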