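import Fermat.Agent.S16x.Conj.H3_Main
import Fermat.Agent.S16x.Conj.H9_Coset

/-!
# S16 [CONJ]: `StMain` and `StMainCoeff`, hypothesis-free (helper3; [C1] by helper9)
-/

set_option autoImplicit false

namespace Fermat.Agent.S16x.Conj.H3

/-- **[C5] MAIN**: the `q`-expansion of `e_i(f)` is the `i`-th elementary symmetric function of
the `t`-expansions of the `p + 1` conjugates of `f`. -/
theorem stMain (p : ℕ) [Fact p.Prime] : StMain p :=
  stMain_of p (Fermat.Agent.S16x.Conj.H9.stCoset p)

/-- **[C5'] MAIN, coefficientwise**. -/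
theorem stMainCoeff (p : ℕ) [Fact p.Prime] : StMainCoeff p :=
  stMainCoeff_of p (Fermat.Agent.S16x.Conj.H9.stCoset p)

end Fermat.Agent.S16x.Conj.H3
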