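import Fermat.Agent.S16x.Conj.H20_W

/-!
# S16 [CONJ], leaf [C7] (hedge, helper20): `StTwo p`

`G ∣[2] (S T^j) (z) = -(1/p) (U_p G)((z + j)/p)` for `G ∈ M_2(Γ₀(p))`, and the resulting
`t`-expansion `tExp p (cj p 2 G j) = conjSeries p (qExpansion 1 G) j`.
-/

set_option autoImplicit false

open UpperHalfPlane ModularForm CongruenceSubgroup SlashInvariantForm

open scoped MatrixGroups ModularForm Manifold Pointwise

noncomputable section

namespace Fermat.Agent.S16x.Conj.H20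

variable (p : ℕ) [Fact p.Prime]

local instance h20_neZero : NeZero p := ⟨(Fact.out : p.Prime).ne_zero⟩

/-- `-1 ∈ Γ₀(p)`. -/
theorem neg_one_mem_Gamma0 : (-1 : SL(2, ℤ)) ∈ Gamma0 p := by
  rw [Gamma0_mem]
  simp

/-- `H ∣ S T^j = G ∣ (1, j; 0, p)`. -/
theorem fricke_slash_ST {k : ℤ} (G : ModularForm (Gamma0 p) k) (j : ℕ) :
    (⇑(fricke p G) : ℍ → ℂ) ∣[k] (ModularGroup.S * ModularGroup.T ^ j : SL(2, ℤ)) =
      (⇑G : ℍ → ℂ) ∣[k] heckeMatrix p j := by
  rw [coe_fricke]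
  show ((⇑G : ℍ → ℂ) ∣[k] wMat p) ∣[k]
    (Matrix.SpecialLinearGroup.mapGL ℝ (ModularGroup.S * ModularGroup.T ^ j)) = _
  rw [← SlashAction.slash_mul, wMat_mul_ST, SlashAction.slash_mul]
  congr 1
  exact SlashInvariantForm.slash_action_eqn G _ ⟨-1, neg_one_mem_Gamma0 p, rfl⟩

/-- The trace to level one of a weight `2` form vanishes. -/
theorem trace_zero (F : ModularForm (Gamma0 p) 2) :
    (⇑F : ℍ → ℂ) + ∑ j : ZMod p,
      (⇑F : ℍ → ℂ) ∣[(2 : ℤ)] (ModularGroup.S * ModularGroup.T ^ j.val : SL(2, ℤ)) = 0 := by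
  classical
  have h0 : ModularForm.trace 𝒮ℒ F = 0 := by
    have := ModularForm.levelOne_weight_two_rank_zero
    rw [rank_zero_iff_forall_zero] at this
    exact this _
  have h1 : (⇑(ModularForm.trace 𝒮ℒ F) : ℍ → ℂ) = 0 := by rw [h0]; rfl
  rw [ModularForm.coe_trace] at h1
  have h2 : ∑ x : OnePoint (ZMod p), cj p 2 (⇑F) x = 0 := by
    rw [← h1]
    letI : Fintype (𝒮ℒ ⧸ ((Gamma0 p : Subgroup (GL (Fin 2) ℝ))).subgroupOf 𝒮ℒ) :=
      Fintype.ofFinite _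
    exact Fintype.sum_equiv (H9.cosetEquiv p) _ _
      (fun x => (H9.quotientFunc_cosetOf p F x).symm)
  have h3 : ∑ x : OnePoint (ZMod p), cj p 2 (⇑F) x =
      cj p 2 (⇑F) none + ∑ j : ZMod p, cj p 2 (⇑F) (some j) :=
    Fintype.sum_option _
  rw [h3] at h2
  have h4 : cj p 2 (⇑F) none = ⇑F := by
    show (⇑F : ℍ → ℂ) ∣[(2 : ℤ)] (1 : SL(2, ℤ)) = ⇑F
    exact SlashAction.slash_one _ _
  rw [h4] at h2
  exact h2

/-- Sums over `ZMod p` and over `Finset.range p`. -/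
theorem sum_zmod_val {M : Type*} [AddCommMonoid M] (f : ℕ → M) :
    ∑ j : ZMod p, f j.val = ∑ j ∈ Finset.range p, f j := by
  obtain ⟨n, hn⟩ : ∃ n, p = n + 1 := ⟨p - 1, by
    have := (Fact.out : p.Prime).pos; omega⟩
  subst hn
  exact Fin.sum_univ_eq_sum_range f (n + 1)

/-- `H = - U_p G`. -/
theorem fricke_eq_neg_heckeU (G : ModularForm (Gamma0 p) 2) :
    (⇑(fricke p G) : ℍ → ℂ) = -heckeU 2 p (⇑G) := by
  have h := trace_zero p (fricke p G)
  have h2 : ∑ j : ZMod p, (⇑(fricke p G) : ℍ → ℂ) ∣[(2 : ℤ)]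
      (ModularGroup.S * ModularGroup.T ^ j.val : SL(2, ℤ)) = heckeU 2 p (⇑G) := by
    rw [heckeU_def, ← sum_zmod_val p (fun j => (⇑G : ℍ → ℂ) ∣[(2 : ℤ)] heckeMatrix p j)]
    exact Finset.sum_congr rfl fun j _ => fricke_slash_ST p G j.val
  rw [h2] at h
  exact eq_neg_of_add_eq_zero_left h

/-- `diag(p, 1) • ((1, j; 0, p) • z) = T^j • z`. -/
theorem diag_smul_heckeMatrix_smul (j : ℕ) (z : ℍ) :
    heckeDiagMatrix p • (heckeMatrix p j • z) = (ModularGroup.T ^ j : SL(2, ℤ)) • z := by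
  have hp : (p : ℂ) ≠ 0 := Nat.cast_ne_zero.mpr (Fact.out : p.Prime).ne_zero
  apply UpperHalfPlane.ext
  rw [coe_heckeDiagMatrix_smul (Fact.out : p.Prime).ne_zero,
    coe_heckeMatrix_smul (Fact.out : p.Prime).ne_zero, ← zpow_natCast,
    UpperHalfPlane.modular_T_zpow_smul, UpperHalfPlane.coe_vadd]
  push_cast
  field_simp
  ring

/-- `(G ∣ S T^j)(z) = p⁻¹ H((z + j)/p)`. -/
theorem slash_ST_apply (G : ModularForm (Gamma0 p) 2) (j : ℕ) (z : ℍ) :
    ((⇑G : ℍ → ℂ) ∣[(2 : ℤ)] (ModularGroup.S * ModularGroup.T ^ j : SL(2, ℤ))) z =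
      (p : ℂ)⁻¹ * fricke p G (heckeMatrix p j • z) := by
  have hp : (p : ℂ) ≠ 0 := Nat.cast_ne_zero.mpr (Fact.out : p.Prime).ne_zero
  have hH : ∀ w : ℍ, fricke p G w =
      (p : ℂ) * ((⇑G : ℍ → ℂ) ∣[(2 : ℤ)] (ModularGroup.S : SL(2, ℤ))) (heckeDiagMatrix p • w) := by
    intro w
    have h1 : (⇑(fricke p G) : ℍ → ℂ) =
        ((⇑G : ℍ → ℂ) ∣[(2 : ℤ)] (Matrix.SpecialLinearGroup.mapGL ℝ ModularGroup.S)) ∣[(2 : ℤ)]
          heckeDiagMatrix p := by
      rw [coe_fricke, wMat_eq, SlashAction.slash_mul]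
    have h2 := congrFun h1 w
    rw [slash_heckeDiagMatrix_apply 2 (Fact.out : p.Prime).ne_zero] at h2
    rw [h2, show (2 : ℤ) - 1 = 1 by norm_num, zpow_one]
    rfl
  rw [hH, diag_smul_heckeMatrix_smul, ← mul_assoc, inv_mul_cancel₀ hp, one_mul,
    SlashAction.slash_mul, ModularForm.SL_slash_apply (γ := ModularGroup.T ^ j)]
  have hd : denom ((ModularGroup.T ^ j : SL(2, ℤ)) : GL (Fin 2) ℝ) z = 1 := by
    have h := ModularGroup.coe_T_zpow (j : ℤ)
    rw [zpow_natCast] at h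
    have e10 : (ModularGroup.T ^ j : SL(2, ℤ)) 1 0 = 0 := by
      have := congrFun (congrFun h 1) 0; simpa using this
    have e11 : (ModularGroup.T ^ j : SL(2, ℤ)) 1 1 = 1 := by
      have := congrFun (congrFun h 1) 1; simpa using this
    rw [ModularGroup.denom_apply, e10, e11]
    simp
  rw [hd]
  simp

/-! ### The expansion -/

theorem periodic_G (G : ModularForm (Gamma0 p) 2) :
    Function.Periodic ((⇑G : ℍ → ℂ) ∘ ofComplex) (1 : ℝ) :=
  SlashInvariantFormClass.periodic_comp_ofComplex G (one_mem_strictPeriods_Gamma0 p)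

/-- The `q`-parameter at `(z + j)/p`. -/
theorem qParam_heckeMatrix_smul (j : ℕ) (z : ℍ) :
    Function.Periodic.qParam (1 : ℝ) ((heckeMatrix p j • z : ℍ) : ℂ) =
      Function.Periodic.qParam (p : ℝ) (z : ℂ) * zeta p ^ j := by
  have hp : (p : ℂ) ≠ 0 := Nat.cast_ne_zero.mpr (Fact.out : p.Prime).ne_zero
  rw [coe_heckeMatrix_smul (Fact.out : p.Prime).ne_zero]
  unfold Function.Periodic.qParam zeta
  rw [← Complex.exp_nat_mul, ← Complex.exp_add]
  congr 1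
  push_cast
  field_simp

/-- `HasSum` form of `H = -U_p G`. -/
theorem hasSum_fricke (G : ModularForm (Gamma0 p) 2) (w : ℍ) :
    HasSum (fun m : ℕ => -(PowerSeries.coeff (p * m) (qExpansion 1 G)) *
      Function.Periodic.qParam (1 : ℝ) (w : ℂ) ^ m) (fricke p G w) := by
  have hp0 : p ≠ 0 := (Fact.out : p.Prime).ne_zero
  have hper := periodic_G p G
  have hhol : MDiff (⇑G : ℍ → ℂ) := ModularFormClass.holo G
  have hbdd : IsBoundedAtImInfty (⇑G : ℍ → ℂ) := ModularFormClass.bdd_at_infty G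
  have hs := hasSum_qExpansion (h := (1 : ℝ)) one_pos
    (periodic_heckeU_comp_ofComplex hper 2 p) (mdifferentiable_heckeU hhol 2 p)
    (isBoundedAtImInfty_heckeU hbdd 2 p) w
  have hc : ∀ m : ℕ, (qExpansion 1 (heckeU 2 p (⇑G : ℍ → ℂ))).coeff m =
      PowerSeries.coeff (p * m) (qExpansion 1 G) := by
    intro m
    have := UpperHalfPlane.qCoeff_heckeU hper hhol hbdd 2 hp0 m
    rw [coeffHeckeU_apply, mul_comm] at this
    exact this
  have hs' := hs.neg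
  rw [fricke_eq_neg_heckeU]
  have e : (fun m : ℕ => -(PowerSeries.coeff (p * m) (qExpansion 1 G)) *
      Function.Periodic.qParam (1 : ℝ) (w : ℂ) ^ m) =
      fun m : ℕ => -((qExpansion 1 (heckeU 2 p (⇑G : ℍ → ℂ))).coeff m •
        Function.Periodic.qParam (1 : ℝ) (w : ℂ) ^ m) := by
    funext m
    rw [hc, smul_eq_mul, neg_mul]
  rw [e]
  exact hs'

/-- **`G ∣ S T^j = -(1/p) ∑ a_{p m} ζ^{j m} t^m`** (helper4's shape (a), in `qParam` form). -/
theorem hasSum_slash_ST (G : ModularForm (Gamma0 p) 2) (j : ℕ) (z : ℍ) :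
    HasSum (fun m : ℕ => PowerSeries.coeff m (conjSeries p (qExpansion 1 G) j) •
      Function.Periodic.qParam (p : ℝ) (z : ℂ) ^ m)
      (((⇑G : ℍ → ℂ) ∣[(2 : ℤ)] (ModularGroup.S * ModularGroup.T ^ j : SL(2, ℤ))) z) := by
  rw [slash_ST_apply]
  have hs := (hasSum_fricke p G (heckeMatrix p j • z)).mul_left ((p : ℂ)⁻¹)
  have e : (fun m : ℕ => PowerSeries.coeff m (conjSeries p (qExpansion 1 G) j) •
      Function.Periodic.qParam (p : ℝ) (z : ℂ) ^ m) =
      fun m : ℕ => (p : ℂ)⁻¹ * (-(PowerSeries.coeff (p * m) (qExpansion 1 G)) *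
        Function.Periodic.qParam (1 : ℝ) ((heckeMatrix p j • z : ℍ) : ℂ) ^ m) := by
    funext m
    rw [qParam_heckeMatrix_smul, conjSeries, PowerSeries.coeff_mk, smul_eq_mul, mul_pow,
      ← pow_mul]
    ring
  rw [e]
  exact hs

/-- A function on `ℍ` invariant under `z ↦ h + z` is `h`-periodic after `ofComplex`. -/
theorem periodic_of_vadd {f : ℍ → ℂ} {h : ℝ} (hf : ∀ z : ℍ, f (h +ᵥ z) = f z) :
    Function.Periodic (f ∘ ofComplex) h := by
  intro w
  by_cases hw : 0 < Complex.im w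
  · have h1 : 0 < Complex.im (w + h) := by simp [hw]
    simp only [Function.comp_apply, ofComplex_apply_of_im_pos h1, ofComplex_apply_of_im_pos hw]
    rw [← hf ⟨w, hw⟩]
    congr 1
    ext
    simp [add_comm]
  · have hw' : Complex.im w ≤ 0 := not_lt.mp hw
    have h1 : Complex.im (w + h) ≤ 0 := by simpa using hw'
    simp only [Function.comp_apply]
    rw [ofComplex_apply_eq_of_im_nonpos h1 hw']

theorem slash_ST_vadd (G : ModularForm (Gamma0 p) 2) (j : ℕ) (z : ℍ) :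
    ((⇑G : ℍ → ℂ) ∣[(2 : ℤ)] (ModularGroup.S * ModularGroup.T ^ j : SL(2, ℤ)))
        ((p : ℝ) +ᵥ z) =
      ((⇑G : ℍ → ℂ) ∣[(2 : ℤ)] (ModularGroup.S * ModularGroup.T ^ j : SL(2, ℤ))) z := by
  have h1 := hasSum_slash_ST p G j ((p : ℝ) +ᵥ z)
  have h2 := hasSum_slash_ST p G j z
  have hq : Function.Periodic.qParam (p : ℝ) (((p : ℝ) +ᵥ z : ℍ) : ℂ) =
      Function.Periodic.qParam (p : ℝ) (z : ℂ) := by
    have hp : (p : ℂ) ≠ 0 := Nat.cast_ne_zero.mpr (Fact.out : p.Prime).ne_zero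
    rw [UpperHalfPlane.coe_vadd]
    unfold Function.Periodic.qParam
    have e : 2 * (Real.pi : ℂ) * Complex.I * (((p : ℝ) : ℂ) + (z : ℂ)) / ((p : ℝ) : ℂ) =
        2 * (Real.pi : ℂ) * Complex.I * (z : ℂ) / ((p : ℝ) : ℂ) + 2 * (Real.pi : ℂ) * Complex.I := by
      push_cast
      field_simp
      ring
    rw [e, Complex.exp_add, Complex.exp_two_pi_mul_I, mul_one]
  rw [hq] at h1
  exact h1.unique h2

/-- The conjugates are nice. -/
theorem nice_slash_ST (G : ModularForm (Gamma0 p) 2) (j : ℕ) :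
    Nice p ((⇑G : ℍ → ℂ) ∣[(2 : ℤ)] (ModularGroup.S * ModularGroup.T ^ j : SL(2, ℤ))) := by
  refine ⟨periodic_of_vadd (slash_ST_vadd p G j), ?_, ?_⟩
  · exact (ModularFormClass.holo G).slash 2 _
  · exact ModularFormClass.bdd_at_infty_slash G _

/-- The `t`-expansion of `G ∣ S T^j`. -/
theorem tExp_slash_ST (G : ModularForm (Gamma0 p) 2) (j : ℕ) :
    tExp p ((⇑G : ℍ → ℂ) ∣[(2 : ℤ)] (ModularGroup.S * ModularGroup.T ^ j : SL(2, ℤ))) =
      conjSeries p (qExpansion 1 G) j := by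
  have hp0 : 0 < p := (Fact.out : p.Prime).pos
  have hpR : (0 : ℝ) < (p : ℝ) := Nat.cast_pos.mpr hp0
  have han := H3.h3_nice_analytic hp0 (nice_slash_ST p G j)
  ext m
  exact (H3.h3_coeff_unique hpR han (hasSum_slash_ST p G j) m).symm

/-- **[C7]** `StTwo p`. -/
theorem stTwo : StTwo p := fun G j => tExp_slash_ST p G j.val

end Fermat.Agent.S16x.Conj.H20
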