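import Fermat.Agent.S16x.Conj.Defs

/-!
# S16 [CONJ], leaves [C3] `StRing`, [C4] `StDescent`, [C9] `StAlg` (helper3)

`tExp p` is additive and multiplicative on `Nice p` functions; for `1`-periodic functions it is
the `q`-expansion with `q = t^p`; conjugation is compatible with the ring operations.
-/

set_option autoImplicit false

open UpperHalfPlane ModularForm CongruenceSubgroup Function

open scoped MatrixGroups ModularForm Manifold

noncomputable section

namespace Fermat.Agent.S16x.Conj.H3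

variable {p : ℕ}

/-! ### `Nice` -/

lemma h3_nice_analytic (hp : 0 < p) {g : ℍ → ℂ} (hg : Nice p g) :
    AnalyticAt ℂ (cuspFunction (p : ℝ) g) 0 :=
  analyticAt_cuspFunction_zero (Nat.cast_pos.mpr hp) hg.1 hg.2.1 hg.2.2

lemma h3_nice_add {g h : ℍ → ℂ} (hg : Nice p g) (hh : Nice p h) : Nice p (g + h) := by
  refine ⟨?_, hg.2.1.add hh.2.1, hg.2.2.add hh.2.2⟩
  intro z
  have h1 := hg.1 z
  have h2 := hh.1 z
  simp only [Function.comp_apply, Pi.add_apply] at h1 h2 ⊢
  rw [h1, h2]

lemma h3_nice_mul {g h : ℍ → ℂ} (hg : Nice p g) (hh : Nice p h) : Nice p (g * h) := by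
  refine ⟨?_, hg.2.1.mul hh.2.1, hg.2.2.mul hh.2.2⟩
  intro z
  have h1 := hg.1 z
  have h2 := hh.1 z
  simp only [Function.comp_apply, Pi.mul_apply] at h1 h2 ⊢
  rw [h1, h2]

lemma h3_nice_const (c : ℂ) : Nice p (fun _ : ℍ => c) := by
  refine ⟨fun z => rfl, mdifferentiable_const, ?_⟩
  exact Filter.const_boundedAtFilter _ c

lemma h3_nice_one : Nice p (1 : ℍ → ℂ) := h3_nice_const 1

lemma h3_nice_zero : Nice p (0 : ℍ → ℂ) := h3_nice_const 0

lemma h3_nice_smul (c : ℂ) {g : ℍ → ℂ} (hg : Nice p g) : Nice p (c • g) := by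
  have h := h3_nice_mul (h3_nice_const (p := p) c) hg
  have e : (fun _ : ℍ => c) * g = c • g := by
    funext z; simp
  rwa [e] at h

lemma h3_nice_prod {ι : Type*} (s : Finset ι) (g : ι → ℍ → ℂ) (hg : ∀ x ∈ s, Nice p (g x)) :
    Nice p (∏ x ∈ s, g x) := by
  classical
  induction s using Finset.induction_on with
  | empty => simpa using h3_nice_one (p := p)
  | insert a s ha ih =>
    rw [Finset.prod_insert ha]
    exact h3_nice_mul (hg a (Finset.mem_insert_self a s))
      (ih fun x hx => hg x (Finset.mem_insert_of_mem hx))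

lemma h3_nice_sum {ι : Type*} (s : Finset ι) (g : ι → ℍ → ℂ) (hg : ∀ x ∈ s, Nice p (g x)) :
    Nice p (∑ x ∈ s, g x) := by
  classical
  induction s using Finset.induction_on with
  | empty => simpa using h3_nice_zero (p := p)
  | insert a s ha ih =>
    rw [Finset.sum_insert ha]
    exact h3_nice_add (hg a (Finset.mem_insert_self a s))
      (ih fun x hx => hg x (Finset.mem_insert_of_mem hx))

/-! ### `tExp` is a ring homomorphism on nice functions -/

lemma h3_tExp_add (hp : 0 < p) {g h : ℍ → ℂ} (hg : Nice p g) (hh : Nice p h) :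
    tExp p (g + h) = tExp p g + tExp p h :=
  qExpansion_add (h3_nice_analytic hp hg) (h3_nice_analytic hp hh)

lemma h3_tExp_mul (hp : 0 < p) {g h : ℍ → ℂ} (hg : Nice p g) (hh : Nice p h) :
    tExp p (g * h) = tExp p g * tExp p h :=
  qExpansion_mul (h3_nice_analytic hp hg) (h3_nice_analytic hp hh)

lemma h3_tExp_smul (hp : 0 < p) (c : ℂ) {g : ℍ → ℂ} (hg : Nice p g) :
    tExp p (c • g) = c • tExp p g :=
  qExpansion_smul (h3_nice_analytic hp hg) c

lemma h3_tExp_one : tExp p (1 : ℍ → ℂ) = 1 := qExpansion_one _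

lemma h3_tExp_zero : tExp p (0 : ℍ → ℂ) = 0 := qExpansion_zero _

lemma h3_tExp_sub (hp : 0 < p) {g h : ℍ → ℂ} (hg : Nice p g) (hh : Nice p h) :
    tExp p (g - h) = tExp p g - tExp p h :=
  qExpansion_sub (h3_nice_analytic hp hg) (h3_nice_analytic hp hh)

lemma h3_tExp_pow (hp : 0 < p) {g : ℍ → ℂ} (hg : Nice p g) (n : ℕ) :
    Nice p (g ^ n) ∧ tExp p (g ^ n) = tExp p g ^ n := by
  induction n with
  | zero => exact ⟨by simpa using h3_nice_one (p := p), by simpa using h3_tExp_one (p := p)⟩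
  | succ n ih =>
    refine ⟨?_, ?_⟩
    · rw [pow_succ]; exact h3_nice_mul ih.1 hg
    · rw [pow_succ, h3_tExp_mul hp ih.1 hg, ih.2, pow_succ]

lemma h3_tExp_prod (hp : 0 < p) {ι : Type*} (s : Finset ι) (g : ι → ℍ → ℂ)
    (hg : ∀ x ∈ s, Nice p (g x)) :
    tExp p (∏ x ∈ s, g x) = ∏ x ∈ s, tExp p (g x) := by
  classical
  induction s using Finset.induction_on with
  | empty => simpa using h3_tExp_one (p := p)
  | insert a s ha ih =>
    rw [Finset.prod_insert ha, Finset.prod_insert ha,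
      h3_tExp_mul hp (hg a (Finset.mem_insert_self a s))
        (h3_nice_prod s g fun x hx => hg x (Finset.mem_insert_of_mem hx)),
      ih fun x hx => hg x (Finset.mem_insert_of_mem hx)]

lemma h3_tExp_sum (hp : 0 < p) {ι : Type*} (s : Finset ι) (g : ι → ℍ → ℂ)
    (hg : ∀ x ∈ s, Nice p (g x)) :
    tExp p (∑ x ∈ s, g x) = ∑ x ∈ s, tExp p (g x) := by
  classical
  induction s using Finset.induction_on with
  | empty => simpa using h3_tExp_zero (p := p)
  | insert a s ha ih =>
    rw [Finset.sum_insert ha, Finset.sum_insert ha,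
      h3_tExp_add hp (hg a (Finset.mem_insert_self a s))
        (h3_nice_sum s g fun x hx => hg x (Finset.mem_insert_of_mem hx)),
      ih fun x hx => hg x (Finset.mem_insert_of_mem hx)]

/-- **[C3]** -/
theorem stRing (p : ℕ) [Fact p.Prime] : StRing p := by
  have hp : 0 < p := (Fact.out : p.Prime).pos
  refine ⟨fun g h hg hh => ⟨h3_nice_add hg hh, h3_tExp_add hp hg hh⟩,
    fun g h hg hh => ⟨h3_nice_mul hg hh, h3_tExp_mul hp hg hh⟩,
    fun c g hg => ⟨h3_nice_smul c hg, h3_tExp_smul hp c hg⟩,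
    ⟨h3_nice_one, h3_tExp_one⟩,
    fun ι s g hg => ⟨h3_tExp_prod hp s g hg, h3_tExp_sum hp s g hg⟩⟩

/-! ### Descent -/

lemma h3_qParam_pow (hp : 0 < p) (z : ℂ) :
    Function.Periodic.qParam (p : ℝ) z ^ p = Function.Periodic.qParam (1 : ℝ) z := by
  have hp' : (p : ℂ) ≠ 0 := Nat.cast_ne_zero.mpr hp.ne'
  unfold Function.Periodic.qParam
  rw [← Complex.exp_nat_mul]
  congr 1
  push_cast
  field_simp

/-- A `1`-periodic function is `p`-periodic. -/
lemma h3_periodic_of_one {g : ℍ → ℂ} (hg : Function.Periodic (g ∘ ofComplex) (1 : ℝ)) :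
    Function.Periodic (g ∘ ofComplex) (p : ℝ) := by
  have h := hg.nat_mul p
  simpa using h

lemma h3_nice_of_one {g : ℍ → ℂ} (hg : Function.Periodic (g ∘ ofComplex) (1 : ℝ))
    (hhol : MDiff g) (hbdd : IsBoundedAtImInfty g) : Nice p g :=
  ⟨h3_periodic_of_one hg, hhol, hbdd⟩

/-- Uniqueness of the coefficients of the `q`-expansion, for plain functions (Mathlib states it
for `FunLike` types). -/
lemma h3_coeff_unique {h : ℝ} {f : ℍ → ℂ} {c : ℕ → ℂ} (hh : 0 < h)
    (hfanalytic : AnalyticAt ℂ (cuspFunction h f) 0)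
    (hf : ∀ τ : ℍ, HasSum (fun m ↦ c m • Function.Periodic.qParam h τ ^ m) (f τ)) (m : ℕ) :
    c m = (UpperHalfPlane.qExpansion h f).coeff m := by
  have h1 := (hasFPowerSeriesOnBall_cuspFunction hh hfanalytic hf).hasFPowerSeriesAt
  have h2 := hfanalytic.hasFPowerSeriesAt
  have h3 := congr_arg (FormalMultilinearSeries.coeff · m) (h1.eq_formalMultilinearSeries h2)
  simp only [FormalMultilinearSeries.coeff_ofScalars] at h3
  rw [h3, qExpansion_coeff]
  simp [div_eq_mul_inv, mul_comm]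

/-- The `HasSum` underlying the descent. -/
lemma h3_hasSum_expand (hp : p ≠ 0) (a : PowerSeries ℂ) (t s : ℂ)
    (hs : HasSum (fun n : ℕ => PowerSeries.coeff n a • (t ^ p) ^ n) s) :
    HasSum (fun m : ℕ => PowerSeries.coeff m (PowerSeries.expand p hp a) • t ^ m) s := by
  have hp0 : 0 < p := Nat.pos_of_ne_zero hp
  have hinj : Function.Injective (fun n : ℕ => p * n) :=
    fun a b hab => Nat.eq_of_mul_eq_mul_left hp0 hab
  refine (hinj.hasSum_iff ?_).mp ?_
  · intro m hm
    have hnd : ¬ p ∣ m := by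
      rintro ⟨n, rfl⟩
      exact hm ⟨n, rfl⟩
    rw [PowerSeries.coeff_expand_of_not_dvd p hp _ hnd, zero_smul]
  · have e : ((fun m : ℕ => PowerSeries.coeff m (PowerSeries.expand p hp a) • t ^ m) ∘
        fun n : ℕ => p * n) = fun n : ℕ => PowerSeries.coeff n a • (t ^ p) ^ n := by
      funext n
      simp only [Function.comp_apply]
      rw [PowerSeries.coeff_expand_mul, pow_mul]
    rw [e]
    exact hs

/-- **Descent**: the `t`-expansion of a `1`-periodic function. -/
theorem h3_tExp_of_one (hp : p ≠ 0) {g : ℍ → ℂ}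
    (hg : Function.Periodic (g ∘ ofComplex) (1 : ℝ))
    (hhol : MDiff g) (hbdd : IsBoundedAtImInfty g) :
    tExp p g = PowerSeries.expand p hp (UpperHalfPlane.qExpansion 1 g) := by
  have hp0 : 0 < p := Nat.pos_of_ne_zero hp
  have hpR : (0 : ℝ) < (p : ℝ) := Nat.cast_pos.mpr hp0
  have hnice : Nice p g := h3_nice_of_one hg hhol hbdd
  have han := h3_nice_analytic hp0 hnice
  have hsum : ∀ τ : ℍ, HasSum (fun m : ℕ =>
      PowerSeries.coeff m (PowerSeries.expand p hp (UpperHalfPlane.qExpansion 1 g)) •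
        Function.Periodic.qParam (p : ℝ) (τ : ℂ) ^ m) (g τ) := by
    intro τ
    apply h3_hasSum_expand hp
    rw [h3_qParam_pow hp0]
    exact hasSum_qExpansion (h := (1 : ℝ)) one_pos hg hhol hbdd τ
  ext m
  exact (h3_coeff_unique hpR han hsum m).symm

/-- **[C4]** -/
theorem stDescent (p : ℕ) [Fact p.Prime] : StDescent p :=
  fun _ hg hhol hbdd => h3_tExp_of_one (Fact.out : p.Prime).ne_zero hg hhol hbdd

/-! ### Algebra of conjugates -/

/-- **[C9]** -/
theorem stAlg (p : ℕ) [Fact p.Prime] : StAlg p := by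
  refine ⟨fun k l f g x => ?_, fun k f g x => ?_, fun k c f x => ?_, fun k F x => ?_⟩
  · exact ModularForm.mul_slash_SL2 k l (rep p x) f g
  · exact SlashAction.add_slash k (rep p x) f g
  · exact ModularForm.SL_smul_slash k (rep p x) f c
  · unfold cj
    rw [ModularForm.SL_slash]
    exact SlashInvariantForm.slash_action_eqn F _ ⟨rep p x, rfl⟩

end Fermat.Agent.S16x.Conj.H3
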