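import Fermat.Agent.S16x.Conj.H9_Coset
import Fermat.Agent.S16x.Conj.H3_Ring
import Fermat.Agent.S23.R5_Scale

/-!
# S16 [CONJ], leaf [C7] (hedge, helper20): the Fricke translate

For `G ∈ M_2(Γ₀(p))`, `H := G ∣[2] W`, `W = (0, -1; p, 0)`, is again in `M_2(Γ₀(p))`, and

* `H ∣[2] (S T^j) = G ∣[2] (1, j; 0, p)` (`W S T^j = -(1, j; 0, p)`), so the vanishing of the trace
  of `H` to level one gives `H = - U_p G`;
* `(G ∣[2] (S T^j)) z = p⁻¹ H ((z + j) / p)`.
-/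

set_option autoImplicit false

open UpperHalfPlane ModularForm CongruenceSubgroup SlashInvariantForm

open scoped MatrixGroups ModularForm Manifold Pointwise

noncomputable section

namespace Fermat.Agent.S16x.Conj.H20

/-- The Fricke matrix `W = (0, -1; p, 0)`. -/
def wMat (p : ℕ) [NeZero p] : GL (Fin 2) ℝ :=
  Matrix.GeneralLinearGroup.mkOfDetNeZero !![0, -1; (p : ℝ), 0] (by
    rw [Matrix.det_fin_two_of]
    have : (p : ℝ) ≠ 0 := Nat.cast_ne_zero.mpr (NeZero.ne p)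
    simpa using this)

theorem val_wMat (p : ℕ) [NeZero p] :
    ((wMat p : GL (Fin 2) ℝ) : Matrix (Fin 2) (Fin 2) ℝ) = !![0, -1; (p : ℝ), 0] := rfl

/-- `W = S * diag(p, 1)`. -/
theorem wMat_eq (p : ℕ) [NeZero p] :
    wMat p = Matrix.SpecialLinearGroup.mapGL ℝ ModularGroup.S * heckeDiagMatrix p := by
  apply Units.ext
  rw [Units.val_mul, val_heckeDiagMatrix (NeZero.ne p), Fermat.Agent.S23.val_mapGL_real, val_wMat]
  ext i j
  fin_cases i <;> fin_cases j <;> simp [Matrix.mul_apply, Fin.sum_univ_two, ModularGroup.S]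

/-- `W * S T^j = (-1) * (1, j; 0, p)`. -/
theorem wMat_mul_ST (p : ℕ) [NeZero p] (j : ℕ) :
    wMat p * Matrix.SpecialLinearGroup.mapGL ℝ (ModularGroup.S * ModularGroup.T ^ j) =
      Matrix.SpecialLinearGroup.mapGL ℝ (-1 : SL(2, ℤ)) * heckeMatrix p j := by
  apply Units.ext
  rw [Units.val_mul, Units.val_mul, val_heckeMatrix (NeZero.ne p), Fermat.Agent.S23.val_mapGL_real,
    Fermat.Agent.S23.val_mapGL_real, val_wMat]
  have h := H9.coe_S_mul_T_pow j
  have e00 : (ModularGroup.S * ModularGroup.T ^ j : SL(2, ℤ)) 0 0 = 0 := by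
    have := congrFun (congrFun h 0) 0; simpa using this
  have e01 : (ModularGroup.S * ModularGroup.T ^ j : SL(2, ℤ)) 0 1 = -1 := by
    have := congrFun (congrFun h 0) 1; simpa using this
  have e10 : (ModularGroup.S * ModularGroup.T ^ j : SL(2, ℤ)) 1 0 = 1 := by
    have := congrFun (congrFun h 1) 0; simpa using this
  have e11 : (ModularGroup.S * ModularGroup.T ^ j : SL(2, ℤ)) 1 1 = j := by
    have := congrFun (congrFun h 1) 1; simpa using this
  rw [e00, e01, e10, e11]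
  ext a b
  fin_cases a <;> fin_cases b <;> simp [Matrix.mul_apply, Fin.sum_univ_two]

/-- For `γ = (a, b; c, d) ∈ Γ₀(p)`, `c = p e`: the matrix `(d, -e; -p b, a)`. -/
def wConj (p : ℕ) (γ : SL(2, ℤ)) (e : ℤ) (he : γ 1 0 = p * e) : SL(2, ℤ) :=
  ⟨!![γ 1 1, -e; -(p * γ 0 1), γ 0 0], by
    have hdet := γ.det_coe
    rw [Matrix.det_fin_two] at hdet
    rw [Matrix.det_fin_two_of]
    rw [he] at hdet
    linear_combination hdet⟩

theorem wConj_mem (p : ℕ) (γ : SL(2, ℤ)) (e : ℤ) (he : γ 1 0 = p * e) :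
    wConj p γ e he ∈ Gamma0 p := by
  rw [Gamma0_mem]
  show ((-(p * γ 0 1) : ℤ) : ZMod p) = 0
  simp

theorem wMat_mul_mapGL (p : ℕ) [NeZero p] (γ : SL(2, ℤ)) (e : ℤ) (he : γ 1 0 = p * e) :
    wMat p * Matrix.SpecialLinearGroup.mapGL ℝ γ =
      Matrix.SpecialLinearGroup.mapGL ℝ (wConj p γ e he) * wMat p := by
  apply Units.ext
  rw [Units.val_mul, Units.val_mul, val_wMat, Fermat.Agent.S23.val_mapGL_real,
    Fermat.Agent.S23.val_mapGL_real]
  have e00 : (wConj p γ e he) 0 0 = γ 1 1 := rfl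
  have e01 : (wConj p γ e he) 0 1 = -e := rfl
  have e10 : (wConj p γ e he) 1 0 = -(p * γ 0 1) := rfl
  have e11 : (wConj p γ e he) 1 1 = γ 0 0 := rfl
  rw [e00, e01, e10, e11, he]
  ext i j
  fin_cases i <;> fin_cases j <;> simp [Matrix.mul_apply, Fin.sum_univ_two] <;> ring

theorem map_gamma0_le_wConj (p : ℕ) [NeZero p] :
    Subgroup.map (Matrix.SpecialLinearGroup.mapGL ℝ) (Gamma0 p) ≤
      ConjAct.toConjAct (wMat p)⁻¹ •
        Subgroup.map (Matrix.SpecialLinearGroup.mapGL ℝ) (Gamma0 p) := by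
  rintro _ ⟨γ, hγ, rfl⟩
  rw [map_inv, Subgroup.mem_inv_pointwise_smul_iff, ConjAct.toConjAct_smul]
  have hγ' : ((γ 1 0 : ℤ) : ZMod p) = 0 := Gamma0_mem.mp hγ
  obtain ⟨e, he⟩ := (ZMod.intCast_zmod_eq_zero_iff_dvd _ _).mp hγ'
  refine ⟨wConj p γ e he, wConj_mem p γ e he, ?_⟩
  rw [wMat_mul_mapGL p γ e he, mul_inv_cancel_right]

/-- The Fricke translate `G ∣[k] W` as a modular form on `Γ₀(p)`. -/
def fricke (p : ℕ) [NeZero p] {k : ℤ} (G : ModularForm (Gamma0 p) k) :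
    ModularForm (Gamma0 p) k :=
  Fermat.Agent.S23.levelMF (map_gamma0_le_wConj p) (ModularForm.translate G (wMat p))

theorem coe_fricke (p : ℕ) [NeZero p] {k : ℤ} (G : ModularForm (Gamma0 p) k) :
    (⇑(fricke p G) : ℍ → ℂ) = (⇑G : ℍ → ℂ) ∣[k] wMat p := rfl

end Fermat.Agent.S16x.Conj.H20
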