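import Mathlib
import Fermat.Agent.S16x.Conj.Defs
import Fermat.Agent.S23.R5_Scale

/-!
# S16 [CONJ], leaf [C8] `StPush` (helper22)

For `F` of level one and weight `k`, the form `F_p(z) = F(p z)` on `Γ₀(p)`
(`= S23.scaleMF p F`), its `q`-expansion `a(q^p)`, and its conjugates
`F_p ∣[k] S T^j = p^{-k} F((z + j)/p)` with `t`-expansion `p^{-k} ∑ a_n ζ^{j n} t^n`.

Main results (namespace `Fermat.Agent.S16x.Conj.H22`):

* `push_apply`  : `scaleMF p F z = F ⟨p z, _⟩`;
* `push_qExp`   : `qExpansion 1 (scaleMF p F) = expand p (qExpansion 1 F)`;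
* `push_cj_eq`, `push_cj_apply` :
  `cj p k (scaleMF p F) (some j) z = (p^k)⁻¹ * F (heckeMatrix p j.val • z)`;
* `push_cj_nice` : the conjugate is `Nice p`;
* `push_cj_hasSum` : the `t`-expansion as a `HasSum`;
* `push_cj_tExp` : `tExp p (cj …) = pushSeries p k (qExpansion 1 F) j.val`;
* `stPush p : StPush p` (VERBATIM `Conj/Defs`).
-/

set_option autoImplicit false

open UpperHalfPlane ModularForm CongruenceSubgroup Function

open scoped MatrixGroups ModularForm Manifold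

noncomputable section

namespace Fermat.Agent.S16x.Conj.H22

/-! ### Matrices -/

/-- Entries of `S * T ^ n`. -/
theorem coe_S_mul_T_pow (n : ℕ) :
    ((ModularGroup.S * ModularGroup.T ^ n : SL(2, ℤ)) : Matrix (Fin 2) (Fin 2) ℤ)
      = !![0, -1; 1, (n : ℤ)] := by
  rw [Matrix.SpecialLinearGroup.coe_mul, ← zpow_natCast, ModularGroup.coe_T_zpow,
    ModularGroup.coe_S]
  ext i j
  fin_cases i <;> fin_cases j <;> simp [Matrix.mul_apply, Fin.sum_univ_two]

theorem val_mapGL_S_mul_T_pow (n : ℕ) :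
    ((Matrix.SpecialLinearGroup.mapGL ℝ (ModularGroup.S * ModularGroup.T ^ n) : GL (Fin 2) ℝ) :
      Matrix (Fin 2) (Fin 2) ℝ) = !![(0 : ℝ), -1; 1, (n : ℝ)] := by
  have e := coe_S_mul_T_pow n
  have e00 : (ModularGroup.S * ModularGroup.T ^ n : SL(2, ℤ)) 0 0 = 0 := by
    have := congrFun (congrFun e 0) 0; simpa using this
  have e01 : (ModularGroup.S * ModularGroup.T ^ n : SL(2, ℤ)) 0 1 = -1 := by
    have := congrFun (congrFun e 0) 1; simpa using this
  have e10 : (ModularGroup.S * ModularGroup.T ^ n : SL(2, ℤ)) 1 0 = 1 := by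
    have := congrFun (congrFun e 1) 0; simpa using this
  have e11 : (ModularGroup.S * ModularGroup.T ^ n : SL(2, ℤ)) 1 1 = (n : ℤ) := by
    have := congrFun (congrFun e 1) 1; simpa using this
  rw [Fermat.Agent.S23.val_mapGL_real, e00, e01, e10, e11]
  simp

theorem val_mapGL_S :
    ((Matrix.SpecialLinearGroup.mapGL ℝ ModularGroup.S : GL (Fin 2) ℝ) :
      Matrix (Fin 2) (Fin 2) ℝ) = !![(0 : ℝ), -1; 1, 0] := by
  have h := val_mapGL_S_mul_T_pow 0
  simpa using h

/-- `diag(p, 1) · S T^j = S · [1, j; 0, p]`. -/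
theorem heckeDiag_mul_ST {p : ℕ} (hp : p ≠ 0) (j : ℕ) :
    heckeDiagMatrix p * Matrix.SpecialLinearGroup.mapGL ℝ (ModularGroup.S * ModularGroup.T ^ j) =
      Matrix.SpecialLinearGroup.mapGL ℝ ModularGroup.S * heckeMatrix p j := by
  apply Units.ext
  rw [Units.val_mul, Units.val_mul, val_heckeDiagMatrix hp, val_heckeMatrix hp,
    val_mapGL_S_mul_T_pow, val_mapGL_S]
  ext a b
  fin_cases a <;> fin_cases b <;> simp [Matrix.mul_apply, Fin.sum_univ_two]

/-! ### The form `F(p z)` -/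

section Push

variable (p : ℕ) [Fact p.Prime]

/-- `NeZero p` for a prime `p` (local instance, used to call `S23.scaleMF`). -/
theorem neZero_prime : NeZero p := ⟨(Fact.out : p.Prime).ne_zero⟩

/-- The push-forward `F(p z)` as a form on `Γ₀(p)`. -/
def push {k : ℤ} (F : ModularForm 𝒮ℒ k) : ModularForm (Gamma0 p) k :=
  haveI : NeZero p := neZero_prime p
  Fermat.Agent.S23.scaleMF p F

theorem coe_push_eq_smul {k : ℤ} (F : ModularForm 𝒮ℒ k) :
    (⇑(push p F) : ℍ → ℂ) = ((p : ℂ) ^ (1 - k)) • ((⇑F : ℍ → ℂ) ∣[k] heckeDiagMatrix p) :=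
  rfl

theorem push_apply {k : ℤ} (F : ModularForm 𝒮ℒ k) (z : ℍ) :
    push p F z = F ⟨(p : ℂ) * z, by
        have hp : (0 : ℝ) < p := Nat.cast_pos.mpr (Fact.out : p.Prime).pos
        simpa using mul_pos hp z.im_pos⟩ := by
  have : NeZero p := neZero_prime p
  have h := Fermat.Agent.S23.scaleMF_apply p F z
  unfold push
  rw [h]
  congr 1
  exact UpperHalfPlane.ext (Fermat.Agent.S23.coe_scaleN p z)

theorem push_qExp {k : ℤ} (F : ModularForm 𝒮ℒ k) :
    UpperHalfPlane.qExpansion 1 (push p F) =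
      PowerSeries.expand p (Fact.out : p.Prime).ne_zero (UpperHalfPlane.qExpansion 1 F) := by
  have : NeZero p := neZero_prime p
  ext n
  have h := Fermat.Agent.S23.qCoeff_scaleMF p F n
  unfold ModularFormClass.qCoeff at h
  rw [PowerSeries.coeff_expand]
  exact h

/-! ### The conjugates -/

theorem push_cj_eq {k : ℤ} (F : ModularForm 𝒮ℒ k) (j : ZMod p) :
    cj p k (push p F) (OnePoint.some j) =
      ((p : ℂ) ^ (1 - k)) • ((⇑F : ℍ → ℂ) ∣[k] heckeMatrix p j.val) := by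
  have hp : p ≠ 0 := (Fact.out : p.Prime).ne_zero
  have hrep : rep p (OnePoint.some j) = ModularGroup.S * ModularGroup.T ^ j.val := rfl
  have e1 : ∀ (g : ℍ → ℂ) (γ : SL(2, ℤ)),
      g ∣[k] γ = g ∣[k] (Matrix.SpecialLinearGroup.mapGL ℝ γ) := fun _ _ => rfl
  have e2 : (⇑F : ℍ → ℂ) ∣[k] (Matrix.SpecialLinearGroup.mapGL ℝ ModularGroup.S) = ⇑F :=
    SlashInvariantForm.slash_action_eqn F _ ⟨ModularGroup.S, rfl⟩
  unfold cj
  rw [hrep, coe_push_eq_smul, ModularForm.SL_smul_slash, e1,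
    ← SlashAction.slash_mul, heckeDiag_mul_ST hp, SlashAction.slash_mul, e2]

theorem push_cj_apply {k : ℤ} (F : ModularForm 𝒮ℒ k) (j : ZMod p) (z : ℍ) :
    cj p k (push p F) (OnePoint.some j) z =
      ((p : ℂ) ^ k)⁻¹ * F (heckeMatrix p j.val • z) := by
  have hp : p ≠ 0 := (Fact.out : p.Prime).ne_zero
  have hp' : (p : ℂ) ≠ 0 := by exact_mod_cast hp
  rw [push_cj_eq, Pi.smul_apply, slash_heckeMatrix_apply k hp, smul_eq_mul, ← mul_assoc]
  congr 1
  rw [zpow_sub₀ hp', zpow_one]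
  field_simp

theorem im_heckeMatrix_smul {q : ℕ} (hq : q ≠ 0) (j : ℕ) (z : ℍ) :
    (heckeMatrix q j • z).im = z.im / q := by
  have h := congrArg Complex.im (coe_heckeMatrix_smul hq j z)
  rw [UpperHalfPlane.coe_im] at h
  rw [h]
  have e : ((z : ℂ) + (j : ℂ)) / (q : ℂ) =
      (((1 : ℝ) / (q : ℝ) : ℝ) : ℂ) * ((z : ℂ) + (j : ℂ)) := by
    push_cast
    ring
  rw [e, Complex.im_ofReal_mul]
  simp only [Complex.add_im, UpperHalfPlane.coe_im, Complex.natCast_im, add_zero]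
  ring

/-- `(z + p + j)/p = (z + j)/p + 1`. -/
theorem push_cj_periodic {k : ℤ} (F : ModularForm 𝒮ℒ k) (j : ZMod p) :
    Function.Periodic (cj p k (push p F) (OnePoint.some j) ∘ ofComplex) (p : ℝ) := by
  have hp : p ≠ 0 := (Fact.out : p.Prime).ne_zero
  have hp' : (p : ℂ) ≠ 0 := by exact_mod_cast hp
  intro w
  by_cases hw : 0 < w.im
  · have hw' : 0 < (w + ((p : ℝ) : ℂ)).im := by simpa using hw
    simp only [Function.comp_apply, ofComplex_apply_of_im_pos hw', ofComplex_apply_of_im_pos hw,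
      push_cj_apply]
    congr 1
    have hper := Fermat.Agent.S23.periodic_levelOne F
      ((heckeMatrix p j.val • (⟨w, hw⟩ : ℍ) : ℍ) : ℂ)
    simp only [Function.comp_apply, ofComplex_apply] at hper
    rw [← hper]
    have e : (((heckeMatrix p j.val • (⟨w, hw⟩ : ℍ) : ℍ) : ℂ) + 1) =
        ((heckeMatrix p j.val • (⟨w + ((p : ℝ) : ℂ), hw'⟩ : ℍ) : ℍ) : ℂ) := by
      rw [coe_heckeMatrix_smul hp, coe_heckeMatrix_smul hp]
      simp only [Complex.ofReal_natCast]
      field_simp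
      ring
    rw [e, ofComplex_apply]
  · have hw0 : w.im ≤ 0 := not_lt.mp hw
    have hw' : (w + ((p : ℝ) : ℂ)).im ≤ 0 := by simpa using hw0
    simp only [Function.comp_apply]
    rw [ofComplex_apply_eq_of_im_nonpos hw' hw0]

theorem push_cj_mdiff {k : ℤ} (F : ModularForm 𝒮ℒ k) (j : ZMod p) :
    MDiff (cj p k (push p F) (OnePoint.some j)) := by
  unfold cj
  exact (ModularFormClass.holo (push p F)).slash k _

theorem push_cj_bdd {k : ℤ} (F : ModularForm 𝒮ℒ k) (j : ZMod p) :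
    IsBoundedAtImInfty (cj p k (push p F) (OnePoint.some j)) := by
  have hp : p ≠ 0 := (Fact.out : p.Prime).ne_zero
  have hpR : (0 : ℝ) < (p : ℝ) := Nat.cast_pos.mpr (Nat.pos_of_ne_zero hp)
  have hF : IsBoundedAtImInfty (⇑F : ℍ → ℂ) := ModularFormClass.bdd_at_infty F
  rw [UpperHalfPlane.isBoundedAtImInfty_iff] at hF ⊢
  obtain ⟨M, A, hMA⟩ := hF
  refine ⟨‖((p : ℂ) ^ k)⁻¹‖ * M, (p : ℝ) * A, fun z hz => ?_⟩
  rw [push_cj_apply, norm_mul]
  refine mul_le_mul_of_nonneg_left (hMA _ ?_) (norm_nonneg _)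
  rw [im_heckeMatrix_smul hp, le_div_iff₀ hpR]
  linarith

/-- **[C2] for the push-forward**: the conjugates of `F(p z)` are `Nice p`. -/
theorem push_cj_nice {k : ℤ} (F : ModularForm 𝒮ℒ k) (j : ZMod p) :
    Nice p (cj p k (push p F) (OnePoint.some j)) :=
  ⟨push_cj_periodic p F j, push_cj_mdiff p F j, push_cj_bdd p F j⟩

/-- `exp(2 π i ((z + j)/p)) = exp(2 π i z / p) ζ^j`. -/
theorem qParam_heckeMatrix_smul (j : ℕ) (z : ℍ) :
    Function.Periodic.qParam (1 : ℝ) ((heckeMatrix p j • z : ℍ) : ℂ) =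
      Function.Periodic.qParam (p : ℝ) (z : ℂ) * zeta p ^ j := by
  have hp : p ≠ 0 := (Fact.out : p.Prime).ne_zero
  have hp' : (p : ℂ) ≠ 0 := by exact_mod_cast hp
  unfold Function.Periodic.qParam zeta
  rw [← Complex.exp_nat_mul, ← Complex.exp_add, coe_heckeMatrix_smul hp]
  congr 1
  push_cast
  field_simp

/-- The `t`-expansion of the conjugates of `F(p z)`, as a `HasSum`. -/
theorem push_cj_hasSum {k : ℤ} (F : ModularForm 𝒮ℒ k) (j : ZMod p) (z : ℍ) :
    HasSum (fun n : ℕ =>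
        (((p : ℂ) ^ k)⁻¹ * (UpperHalfPlane.qExpansion 1 F).coeff n * zeta p ^ (j.val * n)) •
          Function.Periodic.qParam (p : ℝ) (z : ℂ) ^ n)
      (cj p k (push p F) (OnePoint.some j) z) := by
  have h := UpperHalfPlane.hasSum_qExpansion (h := (1 : ℝ)) one_pos
    (Fermat.Agent.S23.periodic_levelOne F) (ModularFormClass.holo F)
    (ModularFormClass.bdd_at_infty F) (heckeMatrix p j.val • z)
  rw [qParam_heckeMatrix_smul] at h
  have h2 := h.mul_left (((p : ℂ) ^ k)⁻¹)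
  rw [push_cj_apply]
  have e : (fun n : ℕ =>
        (((p : ℂ) ^ k)⁻¹ * (UpperHalfPlane.qExpansion 1 F).coeff n * zeta p ^ (j.val * n)) •
          Function.Periodic.qParam (p : ℝ) (z : ℂ) ^ n) =
      fun i : ℕ => ((p : ℂ) ^ k)⁻¹ * ((UpperHalfPlane.qExpansion 1 F).coeff i •
          (Function.Periodic.qParam (p : ℝ) (z : ℂ) * zeta p ^ j.val) ^ i) := by
    funext n
    simp only [smul_eq_mul]
    rw [mul_pow, ← pow_mul]
    ring
  rw [e]
  exact h2

/-- Uniqueness of the coefficients of the `q`-expansion, for plain functions. -/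
theorem coeff_unique_fun {h : ℝ} {f : ℍ → ℂ} {c : ℕ → ℂ} (hh : 0 < h)
    (hfanalytic : AnalyticAt ℂ (cuspFunction h f) 0)
    (hf : ∀ τ : ℍ, HasSum (fun m ↦ c m • Function.Periodic.qParam h τ ^ m) (f τ)) (m : ℕ) :
    c m = (UpperHalfPlane.qExpansion h f).coeff m := by
  have h1 := (hasFPowerSeriesOnBall_cuspFunction hh hfanalytic hf).hasFPowerSeriesAt
  have h2 := hfanalytic.hasFPowerSeriesAt
  have h3 := congr_arg (FormalMultilinearSeries.coeff · m) (h1.eq_formalMultilinearSeries h2)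
  simp only [FormalMultilinearSeries.coeff_ofScalars] at h3
  rw [h3, qExpansion_coeff]
  simp [div_eq_mul_inv, mul_comm]

/-- The `t`-expansion of the conjugates of `F(p z)`. -/
theorem push_cj_tExp {k : ℤ} (F : ModularForm 𝒮ℒ k) (j : ZMod p) :
    tExp p (cj p k (push p F) (OnePoint.some j)) =
      pushSeries p k (UpperHalfPlane.qExpansion 1 F) j.val := by
  have hp : p ≠ 0 := (Fact.out : p.Prime).ne_zero
  have hpR : (0 : ℝ) < (p : ℝ) := Nat.cast_pos.mpr (Nat.pos_of_ne_zero hp)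
  have hn := push_cj_nice p F j
  have han : AnalyticAt ℂ (cuspFunction (p : ℝ) (cj p k (push p F) (OnePoint.some j))) 0 :=
    analyticAt_cuspFunction_zero hpR hn.1 hn.2.1 hn.2.2
  ext n
  unfold tExp pushSeries
  rw [PowerSeries.coeff_mk]
  exact (coeff_unique_fun hpR han (push_cj_hasSum p F j) n).symm

/-- **[C8]** `StPush p`, VERBATIM `Conj/Defs`. -/
theorem stPush : StPush p := fun _ F =>
  ⟨push p F, push_apply p F, push_qExp p F, push_cj_tExp p F⟩

end Push

end Fermat.Agent.S16x.Conj.H22
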