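import Mathlib
import Fermat.Agent.S16x.Conj.Defs
import Fermat.Agent.S16x.Upl.Defs

/-!
# S16, package [CONJ] -> [UPL]/[UPP]: the adapter `Upl.StEsymm p` (helper28)

`Upl.StEsymm p` (the shape consumed by helper17's assemblies of `[UPL]` and `[UPP]`) follows
from the three leaves `Conj.StMainCoeff p`, `Conj.StInfty p` and `Conj.StTwo p` of `Conj/Defs`:
the multiset `js` is `{0, 1, …, p - 1}` (the values of `ZMod.val`), the conjugate at `∞` has
`t`-expansion `selfSeries p G`, and the conjugate at `j` has `t`-expansion `conjSeries p G j`.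
-/

set_option autoImplicit false

open UpperHalfPlane ModularForm CongruenceSubgroup

open scoped MatrixGroups ModularForm

noncomputable section

namespace Fermat.Agent.S16x.Conj.H28

/-- The two vocabularies for the conjugate series agree. -/
theorem h28_conjSeries_eq (p : ℕ) (G : ModularForm (Gamma0 p) 2) (j : ℕ) :
    Fermat.Agent.S16x.Conj.conjSeries p (UpperHalfPlane.qExpansion 1 G) j =
      Fermat.Agent.S16x.Upl.conjSeries p G j := rfl

/-- `selfSeries p G` is `expand p` of the `q`-expansion. -/
theorem h28_selfSeries_eq (p : ℕ) (hp : p ≠ 0) (G : ModularForm (Gamma0 p) 2) :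
    Fermat.Agent.S16x.Upl.selfSeries p G =
      PowerSeries.expand p hp (UpperHalfPlane.qExpansion 1 G) := by
  ext m
  rw [PowerSeries.coeff_expand]
  simp [Fermat.Agent.S16x.Upl.selfSeries]

/-- The universal multiset of `OnePoint (ZMod p)`, mapped under any `F`. -/
theorem h28_univ_onePoint_map (p : ℕ) [NeZero p] {β : Type*} (F : OnePoint (ZMod p) → β) :
    (Finset.univ : Finset (OnePoint (ZMod p))).val.map F =
      F OnePoint.infty ::ₘ (Finset.univ : Finset (ZMod p)).val.map
        (fun j => F (OnePoint.some j)) := by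
  have h : (Finset.univ : Finset (OnePoint (ZMod p))).val =
      (OnePoint.infty : OnePoint (ZMod p)) ::ₘ
        (Finset.univ : Finset (ZMod p)).val.map (fun j => (OnePoint.some j : OnePoint (ZMod p))) :=
    rfl
  rw [h, Multiset.map_cons, Multiset.map_map]
  rfl

/-- **The adapter**: `Upl.StEsymm p` from the leaves of `[CONJ]`. -/
theorem h28_stEsymm_of (p : ℕ) [Fact p.Prime]
    (hMain : Fermat.Agent.S16x.Conj.StMainCoeff p)
    (hInf : Fermat.Agent.S16x.Conj.StInfty p)
    (hTwo : Fermat.Agent.S16x.Conj.StTwo p) :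
    Fermat.Agent.S16x.Upl.StEsymm p := by
  have : NeZero p := ⟨(Fact.out : p.Prime).ne_zero⟩
  intro G i
  refine ⟨(Finset.univ : Finset (ZMod p)).val.map ZMod.val, ?_, ?_, ?_⟩
  · simp
  · intro j hj
    rw [Multiset.mem_map] at hj
    obtain ⟨a, -, rfl⟩ := hj
    exact ZMod.val_lt a
  · intro n
    rw [hMain 2 G i n, h28_univ_onePoint_map, hInf 2 G,
      ← h28_selfSeries_eq p (Fact.out : p.Prime).ne_zero G, Multiset.map_map]
    congr 3
    refine Multiset.map_congr rfl fun j _ => ?_
    rw [hTwo G j]
    rfl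

end Fermat.Agent.S16x.Conj.H28
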