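import Fermat.Agent.S16x.Conj.H3_Ring

/-!
# S16 [CONJ], leaves [C2] `StNice`, [C6] `StInfty`, [C5] `StMain`, `StMainCoeff` (helper3)

The conjugates `f ∣[k] rep p x` of a modular form on `Γ₀(p)` are `p`-periodic, holomorphic and
bounded at `i∞`; the `q`-expansion of the elementary symmetric functions of the conjugates is the
elementary symmetric function of their `t`-expansions (`StMain`, from the coset decomposition
`StCoset`, which is leaf [C1]).
-/

set_option autoImplicit false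

open UpperHalfPlane ModularForm CongruenceSubgroup Function

open scoped MatrixGroups ModularForm Manifold

noncomputable section

namespace Fermat.Agent.S16x.Conj.H3

/-! ### Periodicity of the conjugates -/

/-- `S T^p S⁻¹ = [1, 0; -p, 1]`. -/
def h3_lowerUni (p : ℕ) : SL(2, ℤ) :=
  ⟨!![1, 0; -(p : ℤ), 1], by simp [Matrix.det_fin_two]⟩

lemma h3_lowerUni_mem (p : ℕ) : h3_lowerUni p ∈ Gamma0 p := by
  rw [Gamma0_mem]
  simp [h3_lowerUni]

lemma h3_S_mul_T_pow (p : ℕ) :
    ModularGroup.S * ModularGroup.T ^ p = h3_lowerUni p * ModularGroup.S := by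
  have hT : (ModularGroup.T ^ p : SL(2, ℤ)) = ModularGroup.T ^ (p : ℤ) := (zpow_natCast _ _).symm
  apply Subtype.ext
  rw [Matrix.SpecialLinearGroup.coe_mul, Matrix.SpecialLinearGroup.coe_mul, hT,
    ModularGroup.coe_T_zpow]
  simp only [ModularGroup.S, h3_lowerUni]
  ext i j
  fin_cases i <;> fin_cases j <;> simp [Matrix.mul_apply, Fin.sum_univ_two]

lemma h3_T_pow_mem (p : ℕ) : ModularGroup.T ^ p ∈ Gamma0 p := by
  rw [Gamma0_mem]
  have hT : (ModularGroup.T ^ p : SL(2, ℤ)) = ModularGroup.T ^ (p : ℤ) :=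
    (zpow_natCast _ _).symm
  rw [hT, ModularGroup.coe_T_zpow]
  simp

lemma h3_rep_mul_T_pow (p : ℕ) (x : OnePoint (ZMod p)) :
    ∃ δ ∈ Gamma0 p, rep p x * ModularGroup.T ^ p = δ * rep p x := by
  cases x with
  | infty => exact ⟨ModularGroup.T ^ p, h3_T_pow_mem p, by simp [rep]⟩
  | coe j =>
    refine ⟨h3_lowerUni p, h3_lowerUni_mem p, ?_⟩
    show ModularGroup.S * ModularGroup.T ^ j.val * ModularGroup.T ^ p =
      h3_lowerUni p * (ModularGroup.S * ModularGroup.T ^ j.val)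
    rw [mul_assoc, ← pow_add, add_comm, pow_add, ← mul_assoc, h3_S_mul_T_pow, mul_assoc]

/-- Slashing with `T^n` is the translation by `n`. -/
lemma h3_slash_T_pow (k : ℤ) (g : ℍ → ℂ) (n : ℕ) (z : ℍ) :
    (g ∣[k] (ModularGroup.T ^ n)) z = g ((n : ℝ) +ᵥ z) := by
  have hT : (ModularGroup.T ^ n : SL(2, ℤ)) = ModularGroup.T ^ (n : ℤ) := (zpow_natCast _ _).symm
  have hsm : (ModularGroup.T ^ n : SL(2, ℤ)) • z = (n : ℝ) +ᵥ z := by
    rw [hT, UpperHalfPlane.modular_T_zpow_smul]; simp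
  have h10 : ((ModularGroup.T ^ n : SL(2, ℤ)) : Matrix (Fin 2) (Fin 2) ℤ) 1 0 = 0 := by
    rw [hT, ModularGroup.coe_T_zpow]; simp
  have h11 : ((ModularGroup.T ^ n : SL(2, ℤ)) : Matrix (Fin 2) (Fin 2) ℤ) 1 1 = 1 := by
    rw [hT, ModularGroup.coe_T_zpow]; simp
  rw [ModularForm.SL_slash_apply, hsm]
  have hden : UpperHalfPlane.denom ((ModularGroup.T ^ n : SL(2, ℤ)) : GL (Fin 2) ℝ) z = 1 := by
    rw [ModularGroup.denom_apply, h10, h11]
    simp
  rw [hden]
  simp

/-- From translation invariance to periodicity. -/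
lemma h3_periodic_of_vadd {g : ℍ → ℂ} (c : ℝ) (hv : ∀ z : ℍ, g (c +ᵥ z) = g z) :
    Function.Periodic (g ∘ ofComplex) (c : ℂ) := by
  intro w
  by_cases hw : 0 < Complex.im w
  · have hw' : 0 < Complex.im (w + (c : ℂ)) := by simpa using hw
    simp only [Function.comp_apply]
    rw [ofComplex_apply_of_im_pos hw', ofComplex_apply_of_im_pos hw, ← hv ⟨w, hw⟩]
    congr 1
    ext
    simp [add_comm]
  · have hw0 : Complex.im w ≤ 0 := not_lt.mp hw
    have hw' : Complex.im (w + (c : ℂ)) ≤ 0 := by simpa using hw0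
    simp only [Function.comp_apply]
    rw [ofComplex_apply_eq_of_im_nonpos hw' hw0]

/-- The conjugates of a form on `Γ₀(p)` are invariant under `z ↦ z + p`. -/
lemma h3_cj_vadd (p : ℕ) {k : ℤ} (f : ModularForm (Gamma0 p) k) (x : OnePoint (ZMod p))
    (z : ℍ) : cj p k f x ((p : ℝ) +ᵥ z) = cj p k f x z := by
  obtain ⟨δ, hδ, hrep⟩ := h3_rep_mul_T_pow p x
  have h1 : (cj p k f x) ∣[k] (ModularGroup.T ^ p) = cj p k f x := by
    unfold cj
    rw [← SlashAction.slash_mul, hrep, SlashAction.slash_mul]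
    congr 1
    rw [ModularForm.SL_slash]
    exact SlashInvariantForm.slash_action_eqn f _ ⟨δ, hδ, rfl⟩
  rw [← h3_slash_T_pow k (cj p k f x) p z, h1]

/-- The conjugates are nice. -/
theorem h3_nice_cj (p : ℕ) [NeZero p] {k : ℤ} (f : ModularForm (Gamma0 p) k)
    (x : OnePoint (ZMod p)) : Nice p (cj p k f x) := by
  refine ⟨?_, ?_, ?_⟩
  · exact h3_periodic_of_vadd (p : ℝ) (h3_cj_vadd p f x)
  · have h := (ModularForm.translate f ((rep p x : SL(2, ℤ)) : GL (Fin 2) ℝ)).holo'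
    have e : (⇑(ModularForm.translate f ((rep p x : SL(2, ℤ)) : GL (Fin 2) ℝ)) : ℍ → ℂ)
        = cj p k f x := by
      rw [ModularForm.coe_translate]
      unfold cj
      rw [ModularForm.SL_slash]
    rw [← e]
    exact h
  · exact ModularFormClass.bdd_at_infty_slash f (rep p x)

/-- **[C2]** -/
theorem stNice (p : ℕ) [Fact p.Prime] : StNice p :=
  haveI : NeZero p := ⟨(Fact.out : p.Prime).ne_zero⟩
  fun _ f x => h3_nice_cj p f x

/-! ### The conjugate at `∞` -/

lemma h3_cj_infty (p : ℕ) (k : ℤ) (f : ℍ → ℂ) : cj p k f (OnePoint.infty) = f := by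
  unfold cj
  show f ∣[k] (1 : SL(2, ℤ)) = f
  exact SlashAction.slash_one k f

/-- A form on `Γ₀(p)` is `1`-periodic. -/
lemma h3_periodic_one (p : ℕ) {k : ℤ} (f : ModularForm (Gamma0 p) k) :
    Function.Periodic ((f : ℍ → ℂ) ∘ ofComplex) (1 : ℝ) := by
  have hT : ModularGroup.T ∈ Gamma0 p := by
    rw [Gamma0_mem]
    simp [ModularGroup.T]
  have h1 : (f : ℍ → ℂ) ∣[k] (ModularGroup.T ^ 1) = f := by
    rw [pow_one, ModularForm.SL_slash]
    exact SlashInvariantForm.slash_action_eqn f _ ⟨ModularGroup.T, hT, rfl⟩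
  have hv : ∀ z : ℍ, f ((1 : ℝ) +ᵥ z) = f z := by
    intro z
    have := h3_slash_T_pow k (f : ℍ → ℂ) 1 z
    rw [h1] at this
    simpa using this.symm
  have h := h3_periodic_of_vadd (1 : ℝ) hv
  simpa using h

/-- **[C6]** -/
theorem stInfty (p : ℕ) [Fact p.Prime] : StInfty p := by
  haveI : NeZero p := ⟨(Fact.out : p.Prime).ne_zero⟩
  intro k f
  rw [h3_cj_infty]
  have hn := h3_nice_cj p f (OnePoint.infty)
  rw [h3_cj_infty] at hn
  exact h3_tExp_of_one (Fact.out : p.Prime).ne_zero (h3_periodic_one p f) hn.2.1 hn.2.2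

/-! ### MAIN -/

/-- A level one form is `1`-periodic. -/
lemma h3_periodic_one_levelOne {k : ℤ} (e : ModularForm 𝒮ℒ k) :
    Function.Periodic ((e : ℍ → ℂ) ∘ ofComplex) (1 : ℝ) := by
  have h1 : (e : ℍ → ℂ) ∣[k] (ModularGroup.T ^ 1) = e := by
    rw [pow_one, ModularForm.SL_slash]
    exact SlashInvariantForm.slash_action_eqn e _ ⟨ModularGroup.T, rfl⟩
  have hv : ∀ z : ℍ, e ((1 : ℝ) +ᵥ z) = e z := by
    intro z
    have := h3_slash_T_pow k (e : ℍ → ℂ) 1 z
    rw [h1] at this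
    simpa using this.symm
  have h := h3_periodic_of_vadd (1 : ℝ) hv
  simpa using h

/-- The `t`-expansion of a level one form. -/
theorem h3_tExp_levelOne (p : ℕ) (hp : p ≠ 0) {k : ℤ} (e : ModularForm 𝒮ℒ k) :
    tExp p e = PowerSeries.expand p hp (UpperHalfPlane.qExpansion 1 e) := by
  refine h3_tExp_of_one hp (h3_periodic_one_levelOne e) e.holo' ?_
  have := ModularFormClass.bdd_at_infty_slash e (1 : SL(2, ℤ))
  simpa using this

/-- **[C5] MAIN**, from the coset decomposition [C1]. -/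
theorem stMain_of (p : ℕ) [Fact p.Prime] (hC : StCoset p) : StMain p := by
  haveI : NeZero p := ⟨(Fact.out : p.Prime).ne_zero⟩
  intro k f i
  have hp : 0 < p := (Fact.out : p.Prime).pos
  rw [← h3_tExp_levelOne p (Fact.out : p.Prime).ne_zero (Fermat.Agent.S23.esymmMF f i), hC k f i]
  rw [h3_tExp_sum hp _ _ (fun s _ => h3_nice_prod s _ fun x _ => h3_nice_cj p f x)]
  rw [Finset.esymm_map_val]
  refine Finset.sum_congr rfl fun s _ => ?_
  exact h3_tExp_prod hp s _ fun x _ => h3_nice_cj p f x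

/-- **[C5'] MAIN, coefficientwise**. -/
theorem stMainCoeff_of (p : ℕ) [Fact p.Prime] (hC : StCoset p) : StMainCoeff p := by
  intro k f i n
  rw [← stMain_of p hC k f i, PowerSeries.coeff_expand_mul]

/-- The coefficients of the elementary symmetric functions of the `t`-expansions vanish outside
the multiples of `p`. -/
theorem h3_main_coeff_of_not_dvd (p : ℕ) [Fact p.Prime] (hC : StCoset p) (k : ℤ)
    (f : ModularForm (Gamma0 p) k) (i : ℕ) {m : ℕ} (hm : ¬ p ∣ m) :
    PowerSeries.coeff m (((Finset.univ : Finset (OnePoint (ZMod p))).val.map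
        (fun x => tExp p (cj p k f x))).esymm i) = 0 := by
  rw [← stMain_of p hC k f i, PowerSeries.coeff_expand_of_not_dvd p _ _ hm]

end Fermat.Agent.S16x.Conj.H3
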