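import Mathlib
import Fermat.Agent.S16x.Conj.Defs
import Fermat.Agent.S16x.Conj.H3_Ring
import Fermat.Agent.S16x.Conj.H3_Main

/-!
# S16, package [CONJ], leaf [C7] `StTwo`: the adapters from the `HasSum` shapes (helper28)

`Conj.StTwo p` says `tExp p (cj p 2 G j) = conjSeries p (qExpansion 1 G) j.val`.  The analytic
core (`G ∣ S T^j = -(1/p) (U_p G)((z + j)/p)`) is proved by its owners in a `HasSum` shape; this
file turns each of the announced shapes into `StTwo p` (uniqueness of the coefficients of a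
`t`-expansion, `h3_coeff_unique`), given that the conjugates are `Nice` (`StNice p`).

* `h28_tExp_eq_mk` : a `Nice p` function with `g z = ∑ c n * t^n` has `tExp p g = mk c`;
* `h28_stTwo_of_hasSum_qParam` : from the shape with `ζ^(j n) * 𝕢 p z ^ n`;
* `h28_stTwo_of_hasSum_exp` : from the shape with `exp (2 π i n (z + j) / p)`.
-/

set_option autoImplicit false

open UpperHalfPlane ModularForm CongruenceSubgroup

open scoped MatrixGroups ModularForm Manifold Real

noncomputable section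

namespace Fermat.Agent.S16x.Conj.H28

/-- Uniqueness of the `t`-expansion: a `Nice p` function which is the sum of `∑ c n * t^n`
(`t = 𝕢 p z`) has `t`-expansion `mk c`. -/
theorem h28_tExp_eq_mk {p : ℕ} (hp : 0 < p) {g : ℍ → ℂ}
    (hg : Fermat.Agent.S16x.Conj.Nice p g) (c : ℕ → ℂ)
    (h : ∀ z : ℍ, HasSum (fun n : ℕ => c n * Function.Periodic.qParam (p : ℝ) (z : ℂ) ^ n) (g z)) :
    Fermat.Agent.S16x.Conj.tExp p g = PowerSeries.mk c := by
  have hpR : (0 : ℝ) < (p : ℝ) := Nat.cast_pos.mpr hp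
  have han := Fermat.Agent.S16x.Conj.H3.h3_nice_analytic hp hg
  ext m
  rw [PowerSeries.coeff_mk]
  refine (Fermat.Agent.S16x.Conj.H3.h3_coeff_unique hpR han (c := c) ?_ m).symm
  intro τ
  simpa [smul_eq_mul] using h τ

/-- `exp (2 π i n (z + j) / p) = ζ^(j n) * (𝕢 p z)^n`. -/
theorem h28_exp_eq (p : ℕ) (hp : 0 < p) (j n : ℕ) (z : ℂ) :
    Complex.exp (2 * (π : ℂ) * Complex.I * (n : ℂ) * (z + (j : ℂ)) / (p : ℂ)) =
      Fermat.Agent.S16x.Conj.zeta p ^ (j * n) *
        Function.Periodic.qParam (p : ℝ) z ^ n := by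
  have hp' : (p : ℂ) ≠ 0 := Nat.cast_ne_zero.mpr hp.ne'
  unfold Fermat.Agent.S16x.Conj.zeta Function.Periodic.qParam
  rw [← Complex.exp_nat_mul, ← Complex.exp_nat_mul, ← Complex.exp_add]
  congr 1
  push_cast
  field_simp
  ring

/-- **[C7] from the `𝕢 p`-shape** (helper4's shape (c), second alternative, for the
representatives `S T^j`). -/
theorem h28_stTwo_of_hasSum_qParam (p : ℕ) [Fact p.Prime]
    (hNice : Fermat.Agent.S16x.Conj.StNice p)
    (hST : ∀ (G : ModularForm (Gamma0 p) 2) (j : ℕ) (z : ℍ),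
      HasSum (fun n : ℕ => -(1 / (p : ℂ)) * (UpperHalfPlane.qExpansion 1 G).coeff (p * n) *
          Fermat.Agent.S16x.Conj.zeta p ^ (j * n) *
            Function.Periodic.qParam (p : ℝ) (z : ℂ) ^ n)
        (((⇑G : ℍ → ℂ) ∣[(2 : ℤ)] (ModularGroup.S * ModularGroup.T ^ j)) z)) :
    Fermat.Agent.S16x.Conj.StTwo p := by
  intro G j
  have hp : 0 < p := (Fact.out : p.Prime).pos
  have h := h28_tExp_eq_mk hp (hNice 2 G (OnePoint.some j))
    (fun n => -(1 / (p : ℂ)) * (UpperHalfPlane.qExpansion 1 G).coeff (p * n) *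
          Fermat.Agent.S16x.Conj.zeta p ^ (j.val * n))
    (fun z => hST G j.val z)
  rw [h]
  rfl

/-- **[C7] from the exponential shape** (helper4's `h4_slash_ST`, shape (a)). -/
theorem h28_stTwo_of_hasSum_exp (p : ℕ) [Fact p.Prime]
    (hNice : Fermat.Agent.S16x.Conj.StNice p)
    (hST : ∀ (G : ModularForm (Gamma0 p) 2) (j : ℕ) (z : ℍ),
      HasSum (fun n : ℕ => -(1 / (p : ℂ)) * (UpperHalfPlane.qExpansion 1 G).coeff (p * n) *
          Complex.exp (2 * (π : ℂ) * Complex.I * (n : ℂ) * ((z : ℂ) + (j : ℂ)) / (p : ℂ)))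
        (((⇑G : ℍ → ℂ) ∣[(2 : ℤ)] (ModularGroup.S * ModularGroup.T ^ j)) z)) :
    Fermat.Agent.S16x.Conj.StTwo p := by
  refine h28_stTwo_of_hasSum_qParam p hNice fun G j z => ?_
  have hp : 0 < p := (Fact.out : p.Prime).pos
  have h := hST G j z
  have e : (fun n : ℕ => -(1 / (p : ℂ)) * (UpperHalfPlane.qExpansion 1 G).coeff (p * n) *
          Complex.exp (2 * (π : ℂ) * Complex.I * (n : ℂ) * ((z : ℂ) + (j : ℂ)) / (p : ℂ))) =
      fun n : ℕ => -(1 / (p : ℂ)) * (UpperHalfPlane.qExpansion 1 G).coeff (p * n) *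
          Fermat.Agent.S16x.Conj.zeta p ^ (j * n) *
            Function.Periodic.qParam (p : ℝ) (z : ℂ) ^ n := by
    funext n
    rw [h28_exp_eq p hp j n (z : ℂ)]
    ring
  rwa [e] at h

/-- **[C7] from the exponential shape**, with `StNice` plugged (`H3.stNice`). -/
theorem h28_stTwo_of_exp (p : ℕ) [Fact p.Prime]
    (hST : ∀ (G : ModularForm (Gamma0 p) 2) (j : ℕ) (z : ℍ),
      HasSum (fun n : ℕ => -(1 / (p : ℂ)) * (UpperHalfPlane.qExpansion 1 G).coeff (p * n) *
          Complex.exp (2 * (π : ℂ) * Complex.I * (n : ℂ) * ((z : ℂ) + (j : ℂ)) / (p : ℂ)))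
        (((⇑G : ℍ → ℂ) ∣[(2 : ℤ)] (ModularGroup.S * ModularGroup.T ^ j)) z)) :
    Fermat.Agent.S16x.Conj.StTwo p :=
  h28_stTwo_of_hasSum_exp p (Fermat.Agent.S16x.Conj.H3.stNice p) hST

/-- **[C7] from the `𝕢 p`-shape**, with `StNice` plugged (`H3.stNice`). -/
theorem h28_stTwo_of_qParam (p : ℕ) [Fact p.Prime]
    (hST : ∀ (G : ModularForm (Gamma0 p) 2) (j : ℕ) (z : ℍ),
      HasSum (fun n : ℕ => -(1 / (p : ℂ)) * (UpperHalfPlane.qExpansion 1 G).coeff (p * n) *
          Fermat.Agent.S16x.Conj.zeta p ^ (j * n) *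
            Function.Periodic.qParam (p : ℝ) (z : ℂ) ^ n)
        (((⇑G : ℍ → ℂ) ∣[(2 : ℤ)] (ModularGroup.S * ModularGroup.T ^ j)) z)) :
    Fermat.Agent.S16x.Conj.StTwo p :=
  h28_stTwo_of_hasSum_qParam p (Fermat.Agent.S16x.Conj.H3.stNice p) hST

end Fermat.Agent.S16x.Conj.H28
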