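import Mathlib

/-!
# S16, package CONJ (helper4): the cosets of `Γ₀(p)` in `SL(2, ℤ)`

For a prime `p`, the right cosets of `Γ₀(p)` in `SL(2, ℤ)` are represented by `1` and
`S * T ^ j`, `0 ≤ j < p`.  We prove this, deduce an explicit enumeration of the coset space
used by Mathlib's trace and norm maps, and the resulting formula for the multiset of
conjugates of a modular form of level `Γ₀(p)`.
-/

set_option autoImplicit false

namespace Fermat.Agent.S16x.Conj.H4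

open UpperHalfPlane ModularForm SlashInvariantForm CongruenceSubgroup Matrix.SpecialLinearGroup

open scoped MatrixGroups ModularForm Manifold Pointwise

/-- The matrix of `S * T ^ j`. -/
lemma h4_coe_ST (j : ℕ) :
    ((ModularGroup.S * ModularGroup.T ^ j : SL(2, ℤ)) : Matrix (Fin 2) (Fin 2) ℤ) =
      !![0, -1; 1, (j : ℤ)] := by
  have hT : ((ModularGroup.T ^ j : SL(2, ℤ)) : Matrix (Fin 2) (Fin 2) ℤ) = !![1, (j : ℤ); 0, 1] := by
    have := ModularGroup.coe_T_zpow (j : ℤ)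
    rwa [zpow_natCast] at this
  rw [Matrix.SpecialLinearGroup.coe_mul, hT, ModularGroup.coe_S]
  ext a b
  fin_cases a <;> fin_cases b <;> simp [Matrix.mul_apply, Fin.sum_univ_two]

/-- The matrix of `(S * T ^ j)⁻¹`. -/
lemma h4_coe_ST_inv (j : ℕ) :
    (((ModularGroup.S * ModularGroup.T ^ j)⁻¹ : SL(2, ℤ)) : Matrix (Fin 2) (Fin 2) ℤ) =
      !![(j : ℤ), 1; -1, 0] := by
  rw [Matrix.SpecialLinearGroup.coe_inv, h4_coe_ST, Matrix.adjugate_fin_two]
  ext a b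
  fin_cases a <;> fin_cases b <;> simp

/-- `S * T ^ j` is not in `Γ₀(p)`. -/
lemma h4_ST_notMem (p : ℕ) [Fact p.Prime] (j : ℕ) :
    ModularGroup.S * ModularGroup.T ^ j ∉ Gamma0 p := by
  rw [Gamma0_mem, h4_coe_ST]
  have : Fact (1 < p) := ⟨(Fact.out : p.Prime).one_lt⟩
  simp

/-- `S * T ^ i * (S * T ^ j)⁻¹ ∈ Γ₀(p)` iff `i ≡ j mod p`. -/
lemma h4_ST_mul_inv_mem_iff (p : ℕ) [Fact p.Prime] (i j : ℕ) :
    (ModularGroup.S * ModularGroup.T ^ i) * (ModularGroup.S * ModularGroup.T ^ j)⁻¹ ∈ Gamma0 p ↔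
      ((i : ℤ) : ZMod p) = ((j : ℤ) : ZMod p) := by
  rw [Gamma0_mem, Matrix.SpecialLinearGroup.coe_mul, h4_coe_ST, h4_coe_ST_inv]
  simp only [Matrix.mul_apply, Fin.sum_univ_two, Matrix.of_apply, Matrix.cons_val', Matrix.cons_val_zero,
    Matrix.cons_val_one, Matrix.cons_val_fin_one]
  push_cast
  constructor
  · intro h
    linear_combination -h
  · intro h
    linear_combination -h

/-- Coset decomposition: every element of `SL(2, ℤ)` is in `Γ₀(p)` or in `Γ₀(p) * S * T ^ j` for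
some `j < p`. -/
theorem h4_coset (p : ℕ) [Fact p.Prime] (γ : SL(2, ℤ)) :
    γ ∈ Gamma0 p ∨ ∃ δ ∈ Gamma0 p, ∃ j : ℕ, j < p ∧
      γ = δ * (ModularGroup.S * ModularGroup.T ^ j) := by
  by_cases hγ : γ ∈ Gamma0 p
  · exact Or.inl hγ
  · right
    rw [Gamma0_mem] at hγ
    have : NeZero p := ⟨(Fact.out : p.Prime).ne_zero⟩
    set c : ZMod p := ((γ 1 0 : ℤ) : ZMod p) with hc
    set d : ZMod p := ((γ 1 1 : ℤ) : ZMod p) with hd
    set j : ℕ := (d * c⁻¹).val with hj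
    refine ⟨γ * (ModularGroup.S * ModularGroup.T ^ j)⁻¹, ?_, j, ZMod.val_lt _, by group⟩
    rw [Gamma0_mem, Matrix.SpecialLinearGroup.coe_mul, h4_coe_ST_inv]
    simp only [Matrix.mul_apply, Fin.sum_univ_two, Matrix.of_apply, Matrix.cons_val',
      Matrix.cons_val_zero, Matrix.cons_val_one, Matrix.cons_val_fin_one]
    push_cast
    rw [← hc, ← hd, hj, ZMod.natCast_val, ZMod.cast_id', id]
    field_simp
    ring


/-! ### Enumeration of the coset space -/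

section Quotient

variable (p : ℕ) [Fact p.Prime]

/-- An element of `SL(2, ℤ)`, as an element of the subgroup `𝒮ℒ` of `GL(2, ℝ)`. -/
def h4_toSL (g : SL(2, ℤ)) : ↥𝒮ℒ := ⟨mapGL ℝ g, ⟨g, rfl⟩⟩

@[simp] lemma h4_coe_toSL (g : SL(2, ℤ)) : ((h4_toSL g : ↥𝒮ℒ) : GL (Fin 2) ℝ) = mapGL ℝ g := rfl

lemma h4_toSL_surjective : Function.Surjective h4_toSL := by
  rintro ⟨_, g, rfl⟩
  exact ⟨g, rfl⟩

omit [Fact p.Prime] in
/-- Equality of cosets in Mathlib's coset space, in terms of `SL(2, ℤ)`. -/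
lemma h4_mk_eq_iff (g₁ g₂ : SL(2, ℤ)) :
    ((QuotientGroup.mk (h4_toSL g₁) :
        ↥𝒮ℒ ⧸ (((Gamma0 p : Subgroup SL(2, ℤ)) : Subgroup (GL (Fin 2) ℝ)).subgroupOf 𝒮ℒ)) =
      QuotientGroup.mk (h4_toSL g₂)) ↔ g₁⁻¹ * g₂ ∈ Gamma0 p := by
  rw [QuotientGroup.eq, Subgroup.mem_subgroupOf]
  have : (((h4_toSL g₁)⁻¹ * h4_toSL g₂ : ↥𝒮ℒ) : GL (Fin 2) ℝ) = mapGL ℝ (g₁⁻¹ * g₂) := by
    simp
  rw [this, Subgroup.mem_map]
  constructor
  · rintro ⟨x, hx, hxe⟩
    rwa [← mapGL_injective hxe]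
  · intro h
    exact ⟨_, h, rfl⟩

/-- The representatives of the left cosets `h Γ₀(p)`: `1` and `(S * T ^ j)⁻¹`. -/
def h4_rep : Option (Fin p) → SL(2, ℤ)
  | none => 1
  | some j => (ModularGroup.S * ModularGroup.T ^ (j : ℕ))⁻¹

/-- The enumeration of the coset space. -/
def h4_enum (o : Option (Fin p)) :
    ↥𝒮ℒ ⧸ (((Gamma0 p : Subgroup SL(2, ℤ)) : Subgroup (GL (Fin 2) ℝ)).subgroupOf 𝒮ℒ) :=
  QuotientGroup.mk (h4_toSL (h4_rep p o))

lemma h4_enum_bijective : Function.Bijective (h4_enum p) := by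
  constructor
  · intro o₁ o₂ h
    rw [h4_enum, h4_enum, h4_mk_eq_iff] at h
    rcases o₁ with _ | i <;> rcases o₂ with _ | j
    · rfl
    · exfalso
      simp only [h4_rep, inv_one, one_mul] at h
      exact h4_ST_notMem p j (by simpa using inv_mem h)
    · exfalso
      simp only [h4_rep, inv_inv, mul_one] at h
      exact h4_ST_notMem p i h
    · simp only [h4_rep, inv_inv] at h
      rw [h4_ST_mul_inv_mem_iff] at h
      have h2 : ((i : ℕ) : ZMod p) = ((j : ℕ) : ZMod p) := by exact_mod_cast h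
      rw [ZMod.natCast_eq_natCast_iff'] at h2
      rw [Nat.mod_eq_of_lt i.2, Nat.mod_eq_of_lt j.2] at h2
      exact congrArg some (Fin.ext h2)
  · intro q
    induction q using QuotientGroup.induction_on with
    | H h =>
      obtain ⟨g, rfl⟩ := h4_toSL_surjective h
      rcases h4_coset p g⁻¹ with hg | ⟨δ, hδ, j, hj, hgj⟩
      · refine ⟨none, ?_⟩
        rw [h4_enum, h4_mk_eq_iff]
        simpa [h4_rep] using inv_mem hg
      · refine ⟨some ⟨j, hj⟩, ?_⟩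
        rw [h4_enum, h4_mk_eq_iff]
        have hg : g = (ModularGroup.S * ModularGroup.T ^ j)⁻¹ * δ⁻¹ := by
          rw [← inv_inv g, hgj, mul_inv_rev]
        simp only [h4_rep, inv_inv]
        rw [hg, mul_inv_cancel_left]
        exact inv_mem hδ

/-- The coset space of `Γ₀(p)` in `SL(2, ℤ)` is enumerated by `Option (Fin p)`. -/
noncomputable def h4_enumEquiv : Option (Fin p) ≃
    ↥𝒮ℒ ⧸ (((Gamma0 p : Subgroup SL(2, ℤ)) : Subgroup (GL (Fin 2) ℝ)).subgroupOf 𝒮ℒ) :=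
  Equiv.ofBijective (h4_enum p) (h4_enum_bijective p)

@[simp] lemma h4_enumEquiv_apply (o : Option (Fin p)) : h4_enumEquiv p o = h4_enum p o := rfl

/-- The index of `Γ₀(p)` is `p + 1`. -/
theorem h4_card_quotient :
    Nat.card (↥𝒮ℒ ⧸ (((Gamma0 p : Subgroup SL(2, ℤ)) : Subgroup (GL (Fin 2) ℝ)).subgroupOf 𝒮ℒ)) =
      p + 1 := by
  rw [← Nat.card_congr (h4_enumEquiv p)]
  simp

variable {p} {k : ℤ} {F : Type*} [FunLike F ℍ ℂ]
  [SlashInvariantFormClass F ((Gamma0 p : Subgroup SL(2, ℤ)) : Subgroup (GL (Fin 2) ℝ)) k]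

omit [Fact p.Prime] in
lemma h4_quotientFunc_enum_none (f : F) : quotientFunc f (h4_enum p none) = ⇑f := by
  rw [h4_enum]
  erw [quotientFunc_mk]
  simp [h4_rep]

omit [Fact p.Prime] in
lemma h4_quotientFunc_enum_some (f : F) (j : Fin p) :
    quotientFunc f (h4_enum p (some j)) =
      (⇑f) ∣[k] (ModularGroup.S * ModularGroup.T ^ (j : ℕ) : SL(2, ℤ)) := by
  rw [h4_enum]
  erw [quotientFunc_mk]
  simp only [h4_rep, h4_coe_toSL, map_inv, inv_inv]
  rfl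

omit [Fact p.Prime] in
/-- Slash invariance under `Γ₀(p)`, in terms of `SL(2, ℤ)`. -/
lemma h4_slash_of_mem (f : F) {δ : SL(2, ℤ)} (hδ : δ ∈ Gamma0 p) : (⇑f) ∣[k] δ = ⇑f :=
  SlashInvariantFormClass.slash_action_eq f (mapGL ℝ δ) (Subgroup.mem_map_of_mem _ hδ)

omit [Fact p.Prime] in
/-- The conjugate `f ∣[k] γ` only depends on the coset `Γ₀(p) γ`. -/
lemma h4_slash_mul_of_mem (f : F) {δ : SL(2, ℤ)} (hδ : δ ∈ Gamma0 p) (γ : SL(2, ℤ)) :
    (⇑f) ∣[k] (δ * γ) = (⇑f) ∣[k] γ := by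
  rw [SlashAction.slash_mul, h4_slash_of_mem f hδ]

/-- Every conjugate of `f` is `f` or one of the `f ∣[k] (S * T ^ j)`, `j < p`. -/
theorem h4_slash_cases (f : F) (γ : SL(2, ℤ)) :
    (γ ∈ Gamma0 p ∧ (⇑f) ∣[k] γ = ⇑f) ∨ ∃ j : ℕ, j < p ∧
      (⇑f) ∣[k] γ = (⇑f) ∣[k] (ModularGroup.S * ModularGroup.T ^ j : SL(2, ℤ)) := by
  rcases h4_coset p γ with h | ⟨δ, hδ, j, hj, rfl⟩
  · exact Or.inl ⟨h, h4_slash_of_mem f h⟩
  · exact Or.inr ⟨j, hj, h4_slash_mul_of_mem f hδ _⟩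

/-- The conjugates of `f` are `f` and the `f ∣[k] (S * T ^ j)`, `j < p`: sums. -/
theorem h4_sum_quotientFunc {M : Type*} [AddCommMonoid M] (f : F) (Φ : (ℍ → ℂ) → M)
    [Fintype (↥𝒮ℒ ⧸ (((Gamma0 p : Subgroup SL(2, ℤ)) : Subgroup (GL (Fin 2) ℝ)).subgroupOf 𝒮ℒ))] :
    ∑ q : ↥𝒮ℒ ⧸ (((Gamma0 p : Subgroup SL(2, ℤ)) : Subgroup (GL (Fin 2) ℝ)).subgroupOf 𝒮ℒ),
        Φ (quotientFunc f q) =
      Φ ⇑f + ∑ j ∈ Finset.range p,
        Φ ((⇑f) ∣[k] (ModularGroup.S * ModularGroup.T ^ j : SL(2, ℤ))) := by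
  rw [← (h4_enumEquiv p).sum_comp, Fintype.sum_option]
  simp only [h4_enumEquiv_apply, h4_quotientFunc_enum_none, h4_quotientFunc_enum_some]
  rw [Fin.sum_univ_eq_sum_range
    (fun j => Φ ((⇑f) ∣[k] (ModularGroup.S * ModularGroup.T ^ j : SL(2, ℤ)))) p]

/-- The conjugates of `f` are `f` and the `f ∣[k] (S * T ^ j)`, `j < p`: the multiset. -/
theorem h4_conj_multiset (f : F)
    [Fintype (↥𝒮ℒ ⧸ (((Gamma0 p : Subgroup SL(2, ℤ)) : Subgroup (GL (Fin 2) ℝ)).subgroupOf 𝒮ℒ))] :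
    (Finset.univ : Finset (↥𝒮ℒ ⧸
        (((Gamma0 p : Subgroup SL(2, ℤ)) : Subgroup (GL (Fin 2) ℝ)).subgroupOf 𝒮ℒ))).val.map
        (quotientFunc f) =
      (⇑f) ::ₘ (Multiset.range p).map
        (fun j => (⇑f) ∣[k] (ModularGroup.S * ModularGroup.T ^ j : SL(2, ℤ))) := by
  classical
  have h1 : (Finset.univ : Finset (↥𝒮ℒ ⧸
        (((Gamma0 p : Subgroup SL(2, ℤ)) : Subgroup (GL (Fin 2) ℝ)).subgroupOf 𝒮ℒ))) =
      (Finset.univ : Finset (Option (Fin p))).map (h4_enumEquiv p).toEmbedding := by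
    simp
  rw [h1, Finset.map_val, Multiset.map_map]
  have h2 : (Finset.univ : Finset (Option (Fin p))).val =
      none ::ₘ Multiset.map some (Finset.univ : Finset (Fin p)).val := by
    rw [univ_option]
    rfl
  rw [h2, Multiset.map_cons, Multiset.map_map]
  congr 1
  · exact h4_quotientFunc_enum_none f
  · have h3 : (Multiset.range p) =
        Multiset.map (fun j : Fin p => (j : ℕ)) (Finset.univ : Finset (Fin p)).val := by
      have := congrArg Finset.val (Fin.map_valEmbedding_univ (n := p))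
      rw [Finset.map_val] at this
      rw [← Finset.range_val, ← Nat.Iio_eq_range]
      exact this.symm
    rw [h3, Multiset.map_map]
    refine Multiset.map_congr rfl fun j _ => ?_
    exact h4_quotientFunc_enum_some f j

/-- The trace to level one of a form of level `Γ₀(p)`, explicitly. -/
theorem h4_trace_apply (f : ModularForm ((Gamma0 p : Subgroup SL(2, ℤ)) : Subgroup (GL (Fin 2) ℝ)) k)
    (z : ℍ) :
    ModularForm.trace 𝒮ℒ f z =
      f z + ∑ j ∈ Finset.range p, ((⇑f) ∣[k] (ModularGroup.S * ModularGroup.T ^ j : SL(2, ℤ))) z := by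
  let := Fintype.ofFinite
    (↥𝒮ℒ ⧸ (((Gamma0 p : Subgroup SL(2, ℤ)) : Subgroup (GL (Fin 2) ℝ)).subgroupOf 𝒮ℒ))
  rw [ModularForm.coe_trace, Finset.sum_apply]
  exact h4_sum_quotientFunc f (fun g => g z)

end Quotient

end Fermat.Agent.S16x.Conj.H4
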