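import Mathlib
import Fermat.Agent.S16x.Conj.H4_Cosets

/-!
# S16, package CONJ (helper4): the Fricke involution and the conjugates in weight two

For `G ∈ M₂(Γ₀(p))` with `q`-expansion `∑ aₙ qⁿ` we prove
`(G ∣[2] S T^j)(z) = -(1/p) ∑ a_{pn} exp (2 π i n (z + j) / p)`.

The proof: `B := G ∣[2] W`, `W = [0, -1; p, 0]`, is again a modular form on `Γ₀(p)`; its trace
to level one vanishes (there are no forms of weight two and level one), and the trace is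
`B + (1/p) ∑_j G((z + j)/p)`.  Hence `B = -U_p G`, and `G ∣[2] S = (1/p) B(z/p)`.
-/

set_option autoImplicit false

namespace Fermat.Agent.S16x.Conj.H4

open UpperHalfPlane ModularForm SlashInvariantForm CongruenceSubgroup Matrix.SpecialLinearGroup

open scoped MatrixGroups ModularForm Manifold Pointwise Real

section Matrices

variable (p : ℕ) [Fact p.Prime]

/-- The Fricke matrix `W = [0, -1; p, 0]`. -/
noncomputable def h4_W : GL (Fin 2) ℝ :=
  Matrix.GeneralLinearGroup.mkOfDetNeZero !![0, -1; (p : ℝ), 0] (by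
    have : (p : ℝ) ≠ 0 := Nat.cast_ne_zero.mpr (Fact.out : p.Prime).ne_zero
    simpa [Matrix.det_fin_two] using this)

/-- The matrix `A = [1, 0; 0, p]`. -/
noncomputable def h4_A : GL (Fin 2) ℝ :=
  Matrix.GeneralLinearGroup.mkOfDetNeZero !![1, 0; 0, (p : ℝ)] (by
    have : (p : ℝ) ≠ 0 := Nat.cast_ne_zero.mpr (Fact.out : p.Prime).ne_zero
    simpa [Matrix.det_fin_two] using this)

lemma h4_W_val : (h4_W p : Matrix (Fin 2) (Fin 2) ℝ) = !![0, -1; (p : ℝ), 0] := rfl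

lemma h4_A_val : (h4_A p : Matrix (Fin 2) (Fin 2) ℝ) = !![1, 0; 0, (p : ℝ)] := rfl

lemma h4_det_W : (h4_W p).det.val = (p : ℝ) := by
  simp [h4_W, Matrix.GeneralLinearGroup.mkOfDetNeZero, Matrix.det_fin_two]

lemma h4_det_A : (h4_A p).det.val = (p : ℝ) := by
  simp [h4_A, Matrix.GeneralLinearGroup.mkOfDetNeZero, Matrix.det_fin_two]

lemma h4_p_pos : (0 : ℝ) < p := Nat.cast_pos.mpr (Fact.out : p.Prime).pos

lemma h4_p_ne : (p : ℂ) ≠ 0 := Nat.cast_ne_zero.mpr (Fact.out : p.Prime).ne_zero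

lemma h4_coe_A_smul (z : ℍ) : ((h4_A p • z : ℍ) : ℂ) = (z : ℂ) / p := by
  rw [coe_smul_of_det_pos (by rw [h4_det_A]; exact h4_p_pos p)]
  simp [num, denom, h4_A_val]

lemma h4_coe_W_smul (z : ℍ) : ((h4_W p • z : ℍ) : ℂ) = -1 / ((p : ℂ) * z) := by
  rw [coe_smul_of_det_pos (by rw [h4_det_W]; exact h4_p_pos p)]
  simp [num, denom, h4_W_val]

lemma h4_denom_W (z : ℍ) : denom (h4_W p) z = (p : ℂ) * z := by
  simp [denom, h4_W_val]

/-- The slash action of a matrix of positive determinant. -/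
lemma h4_slash_apply_pos (f : ℍ → ℂ) (k : ℤ) {g : GL (Fin 2) ℝ} (hg : 0 < g.det.val) (τ : ℍ) :
    (f ∣[k] g) τ = f (g • τ) * ((g.det.val : ℝ) : ℂ) ^ (k - 1) * denom g τ ^ (-k) := by
  rw [ModularForm.slash_apply, abs_of_pos hg, σ, if_pos hg, ContinuousAlgEquiv.refl_apply]

lemma h4_slash_W_apply (f : ℍ → ℂ) (z : ℍ) :
    (f ∣[(2 : ℤ)] h4_W p) z = f (h4_W p • z) * (p : ℂ) * ((p : ℂ) * z) ^ (-2 : ℤ) := by
  rw [h4_slash_apply_pos f 2 (by rw [h4_det_W]; exact h4_p_pos p), h4_det_W, h4_denom_W]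
  norm_num

end Matrices

section Fricke

variable (p : ℕ) [Fact p.Prime]

/-- The conjugate `W γ W⁻¹` of an element `γ = [a, b; p c', d]` of `Γ₀(p)`. -/
def h4_conjW (γ : SL(2, ℤ)) (c' : ℤ) (hc : γ 1 0 = p * c') : SL(2, ℤ) :=
  ⟨!![γ 1 1, -c'; -(p * γ 0 1), γ 0 0], by
    have hdet := γ.det_coe
    rw [Matrix.det_fin_two] at hdet
    rw [Matrix.det_fin_two_of]
    rw [hc] at hdet
    linear_combination hdet⟩

lemma h4_conjW_mem (γ : SL(2, ℤ)) (c' : ℤ) (hc : γ 1 0 = p * c') :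
    h4_conjW p γ c' hc ∈ Gamma0 p := by
  rw [Gamma0_mem]
  simp [h4_conjW]

lemma h4_W_mul (γ : SL(2, ℤ)) (c' : ℤ) (hc : γ 1 0 = p * c') :
    h4_W p * mapGL ℝ γ = mapGL ℝ (h4_conjW p γ c' hc) * h4_W p := by
  apply Units.ext
  have hc' : ((γ 1 0 : ℤ) : ℝ) = p * c' := by exact_mod_cast congrArg (Int.cast : ℤ → ℝ) hc
  have hv : ((h4_conjW p γ c' hc : SL(2, ℤ)) : Matrix (Fin 2) (Fin 2) ℤ) =
      !![γ 1 1, -c'; -(p * γ 0 1), γ 0 0] := rfl
  rw [Units.val_mul, Units.val_mul, mapGL_coe_matrix, mapGL_coe_matrix,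
    Matrix.SpecialLinearGroup.map_apply_coe, Matrix.SpecialLinearGroup.map_apply_coe, hv]
  ext i j
  fin_cases i <;> fin_cases j <;>
    simp [h4_W_val, Matrix.mul_apply, Fin.sum_univ_two, hc', mul_comm]

/-- `Γ₀(p)` is contained in its conjugate by the Fricke matrix. -/
lemma h4_le_conj :
    ((Gamma0 p : Subgroup SL(2, ℤ)) : Subgroup (GL (Fin 2) ℝ)) ≤
      ConjAct.toConjAct (h4_W p)⁻¹ • ((Gamma0 p : Subgroup SL(2, ℤ)) : Subgroup (GL (Fin 2) ℝ)) := by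
  rintro x ⟨γ, hγ, rfl⟩
  rw [map_inv, Subgroup.mem_inv_pointwise_smul_iff, ConjAct.toConjAct_smul]
  have hγ' := hγ
  rw [SetLike.mem_coe, Gamma0_mem, ZMod.intCast_zmod_eq_zero_iff_dvd] at hγ'
  obtain ⟨c', hc⟩ := hγ'
  refine ⟨h4_conjW p γ c' hc, h4_conjW_mem p γ c' hc, ?_⟩
  rw [eq_mul_inv_iff_mul_eq]
  exact (h4_W_mul p γ c' hc).symm

variable {p}

/-- The Fricke involution `G ↦ G ∣[k] W` on `M_k(Γ₀(p))`. -/
noncomputable def h4_fricke {k : ℤ}
    (G : ModularForm ((Gamma0 p : Subgroup SL(2, ℤ)) : Subgroup (GL (Fin 2) ℝ)) k) :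
    ModularForm ((Gamma0 p : Subgroup SL(2, ℤ)) : Subgroup (GL (Fin 2) ℝ)) k where
  toFun := (⇑G) ∣[k] h4_W p
  slash_action_eq' γ hγ :=
    (ModularForm.translate G (h4_W p)).slash_action_eq' γ (h4_le_conj p hγ)
  holo' := (ModularForm.translate G (h4_W p)).holo'
  bdd_at_cusps' hc := (ModularForm.translate G (h4_W p)).bdd_at_cusps' (hc.mono (h4_le_conj p))

@[simp] lemma h4_coe_fricke {k : ℤ}
    (G : ModularForm ((Gamma0 p : Subgroup SL(2, ℤ)) : Subgroup (GL (Fin 2) ℝ)) k) :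
    ⇑(h4_fricke G) = (⇑G) ∣[k] h4_W p := rfl

end Fricke

section Pointwise

variable (p : ℕ) [Fact p.Prime]

lemma h4_slash_S_apply (f : ℍ → ℂ) (z : ℍ) :
    (f ∣[(2 : ℤ)] ModularGroup.S) z = f (ModularGroup.S • z) * (z : ℂ) ^ (-2 : ℤ) := by
  rw [ModularForm.SL_slash_apply, ModularGroup.denom_S]

lemma h4_coe_S_smul (z : ℍ) : ((ModularGroup.S • z : ℍ) : ℂ) = (-(z : ℂ))⁻¹ := by
  rw [UpperHalfPlane.modular_S_smul]

lemma h4_W_A_smul (z : ℍ) : h4_W p • (h4_A p • z) = ModularGroup.S • z := by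
  apply UpperHalfPlane.ext
  rw [h4_coe_W_smul, h4_coe_A_smul, h4_coe_S_smul]
  have hz : (z : ℂ) ≠ 0 := UpperHalfPlane.ne_zero z
  have hp : (p : ℂ) ≠ 0 := h4_p_ne p
  field_simp

lemma h4_W_S_smul (z : ℍ) : h4_W p • (ModularGroup.S • z) = h4_A p • z := by
  apply UpperHalfPlane.ext
  rw [h4_coe_W_smul, h4_coe_A_smul, h4_coe_S_smul]
  have hz : (z : ℂ) ≠ 0 := UpperHalfPlane.ne_zero z
  have hp : (p : ℂ) ≠ 0 := h4_p_ne p
  field_simp

/-- `f ∣ S = p⁻¹ (f ∣ W)(z / p)` in weight two. -/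
lemma h4_slash_S_eq (f : ℍ → ℂ) (z : ℍ) :
    (f ∣[(2 : ℤ)] ModularGroup.S) z = (p : ℂ)⁻¹ * (f ∣[(2 : ℤ)] h4_W p) (h4_A p • z) := by
  rw [h4_slash_S_apply, h4_slash_W_apply, h4_W_A_smul, h4_coe_A_smul]
  have hz : (z : ℂ) ≠ 0 := UpperHalfPlane.ne_zero z
  have hp : (p : ℂ) ≠ 0 := h4_p_ne p
  have h1 : (p : ℂ) * ((z : ℂ) / p) = z := by field_simp
  rw [h1]
  field_simp

/-- `(f ∣ W) ∣ S = p⁻¹ f(z / p)` in weight two. -/
lemma h4_slash_W_S_eq (f : ℍ → ℂ) (z : ℍ) :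
    ((f ∣[(2 : ℤ)] h4_W p) ∣[(2 : ℤ)] ModularGroup.S) z = (p : ℂ)⁻¹ * f (h4_A p • z) := by
  rw [h4_slash_S_apply, h4_slash_W_apply, h4_W_S_smul, h4_coe_S_smul]
  have hz : (z : ℂ) ≠ 0 := UpperHalfPlane.ne_zero z
  have hp : (p : ℂ) ≠ 0 := h4_p_ne p
  have h1 : ((p : ℂ) * (-(z : ℂ))⁻¹) ^ (-2 : ℤ) * (z : ℂ) ^ (-2 : ℤ) = ((p : ℂ) ^ 2)⁻¹ := by
    rw [← mul_zpow]
    have : (p : ℂ) * (-(z : ℂ))⁻¹ * z = -p := by field_simp
    rw [this, zpow_neg]
    norm_num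
  rw [mul_assoc, h1]
  field_simp

/-- Slashing with `T ^ n` is the translation by `n`. -/
lemma h4_slash_T_pow (k : ℤ) (g : ℍ → ℂ) (n : ℕ) (z : ℍ) :
    (g ∣[k] (ModularGroup.T ^ n)) z = g ((n : ℝ) +ᵥ z) := by
  have hT : (ModularGroup.T ^ n : SL(2, ℤ)) = ModularGroup.T ^ (n : ℤ) := (zpow_natCast _ _).symm
  have hsm : (ModularGroup.T ^ n : SL(2, ℤ)) • z = (n : ℝ) +ᵥ z := by
    rw [hT, UpperHalfPlane.modular_T_zpow_smul]; simp
  have h10 : ((ModularGroup.T ^ n : SL(2, ℤ)) : Matrix (Fin 2) (Fin 2) ℤ) 1 0 = 0 := by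
    rw [hT, ModularGroup.coe_T_zpow]; simp
  have h11 : ((ModularGroup.T ^ n : SL(2, ℤ)) : Matrix (Fin 2) (Fin 2) ℤ) 1 1 = 1 := by
    rw [hT, ModularGroup.coe_T_zpow]; simp
  rw [ModularForm.SL_slash_apply, hsm]
  have hden : UpperHalfPlane.denom ((ModularGroup.T ^ n : SL(2, ℤ)) : GL (Fin 2) ℝ) z = 1 := by
    rw [ModularGroup.denom_apply, h10, h11]
    simp
  rw [hden]
  simp

lemma h4_slash_ST_apply (k : ℤ) (f : ℍ → ℂ) (j : ℕ) (z : ℍ) :
    (f ∣[k] (ModularGroup.S * ModularGroup.T ^ j : SL(2, ℤ))) z =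
      (f ∣[k] ModularGroup.S) ((j : ℝ) +ᵥ z) := by
  rw [SlashAction.slash_mul, h4_slash_T_pow]

lemma h4_coe_A_vadd (j : ℕ) (z : ℍ) :
    ((h4_A p • ((j : ℝ) +ᵥ z) : ℍ) : ℂ) = ((z : ℂ) + j) / p := by
  rw [h4_coe_A_smul, UpperHalfPlane.coe_vadd]
  push_cast
  ring

end Pointwise

section Trace

variable {p : ℕ} [Fact p.Prime]

/-- The trace to level one of a weight two form vanishes. -/
theorem h4_trace_zero
    (F : ModularForm ((Gamma0 p : Subgroup SL(2, ℤ)) : Subgroup (GL (Fin 2) ℝ)) 2) (z : ℍ) :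
    F z + ∑ j ∈ Finset.range p,
      ((⇑F) ∣[(2 : ℤ)] (ModularGroup.S * ModularGroup.T ^ j : SL(2, ℤ))) z = 0 := by
  rw [← h4_trace_apply]
  have := rank_zero_iff_forall_zero.mp levelOne_weight_two_rank_zero (ModularForm.trace 𝒮ℒ F)
  rw [this]
  rfl

lemma h4_one_mem_strictPeriods :
    (1 : ℝ) ∈ (((Gamma0 p : Subgroup SL(2, ℤ)) : Subgroup (GL (Fin 2) ℝ))).strictPeriods := by
  have hT : ModularGroup.T ∈ Gamma0 p := by
    rw [Gamma0_mem, ModularGroup.coe_T]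
    simp
  rw [Subgroup.strictPeriods_eq_zmultiples_one_of_T_mem hT]
  exact AddSubgroup.mem_zmultiples 1

/-- The `q`-expansion of a form on `Γ₀(p)`, as a `HasSum` in terms of `exp`. -/
lemma h4_hasSum_exp {k : ℤ}
    (G : ModularForm ((Gamma0 p : Subgroup SL(2, ℤ)) : Subgroup (GL (Fin 2) ℝ)) k) (w : ℍ) :
    HasSum (fun m : ℕ => (qExpansion 1 G).coeff m * Complex.exp (2 * π * Complex.I * w) ^ m)
      (G w) := by
  have h := ModularForm.hasSum_qExpansion G one_pos h4_one_mem_strictPeriods w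
  simpa [Function.Periodic.qParam] using h

/-- Orthogonality for the `p`-th roots of unity. -/
lemma h4_sum_root (m : ℕ) :
    ∑ j ∈ Finset.range p, (Complex.exp (2 * π * Complex.I / p) ^ j) ^ m =
      if p ∣ m then (p : ℂ) else 0 := by
  have hp : p.Prime := Fact.out
  have hζ := Complex.isPrimitiveRoot_exp p hp.ne_zero
  split_ifs with h
  · have h1 : Complex.exp (2 * π * Complex.I / p) ^ m = 1 := (hζ.pow_eq_one_iff_dvd m).mpr h
    have : ∀ j ∈ Finset.range p, (Complex.exp (2 * π * Complex.I / p) ^ j) ^ m = 1 := by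
      intro j _
      rw [← pow_mul, mul_comm j m, pow_mul, h1, one_pow]
    rw [Finset.sum_congr rfl this]
    simp
  · have hcop : m.Coprime p := ((Nat.Prime.coprime_iff_not_dvd hp).mpr h).symm
    have hζm := hζ.pow_of_coprime m hcop
    have := hζm.geom_sum_eq_zero hp.one_lt
    rw [← this]
    refine Finset.sum_congr rfl fun j _ => ?_
    rw [← pow_mul, ← pow_mul, mul_comm j m]

/-- **The Fricke involution is `-U_p` in weight two**: `(G ∣ W)(z) = -∑ a_{pn} qⁿ`. -/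
theorem h4_fricke_hasSum
    (G : ModularForm ((Gamma0 p : Subgroup SL(2, ℤ)) : Subgroup (GL (Fin 2) ℝ)) 2) (z : ℍ) :
    HasSum (fun n : ℕ => -((qExpansion 1 G).coeff (p * n) *
        Complex.exp (2 * π * Complex.I * z) ^ n))
      (((⇑G) ∣[(2 : ℤ)] h4_W p) z) := by
  have hp : p.Prime := Fact.out
  have hpC : (p : ℂ) ≠ 0 := h4_p_ne p
  set a : ℕ → ℂ := fun m => (qExpansion 1 G).coeff m with ha
  set t : ℂ := Complex.exp (2 * π * Complex.I * z / p) with ht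
  set ζ : ℂ := Complex.exp (2 * π * Complex.I / p) with hζ
  -- the conjugates of `B = G ∣ W`
  have hB : ∀ j : ℕ, ((⇑(h4_fricke G)) ∣[(2 : ℤ)]
      (ModularGroup.S * ModularGroup.T ^ j : SL(2, ℤ))) z =
      (p : ℂ)⁻¹ * G (h4_A p • ((j : ℝ) +ᵥ z)) := by
    intro j
    rw [h4_slash_ST_apply, h4_coe_fricke, h4_slash_W_S_eq]
  have htr := h4_trace_zero (h4_fricke G) z
  simp only [hB] at htr
  rw [h4_coe_fricke, ← Finset.mul_sum] at htr
  -- the `q`-expansions of the summands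
  have hq : ∀ j : ℕ, Complex.exp (2 * π * Complex.I * (h4_A p • ((j : ℝ) +ᵥ z) : ℍ)) =
      t * ζ ^ j := by
    intro j
    rw [h4_coe_A_vadd, ht, hζ, ← Complex.exp_nat_mul, ← Complex.exp_add]
    congr 1
    field_simp
  have hsum : HasSum (fun m : ℕ => ∑ j ∈ Finset.range p, a m * (t * ζ ^ j) ^ m)
      (∑ j ∈ Finset.range p, G (h4_A p • ((j : ℝ) +ᵥ z))) := by
    refine hasSum_sum fun j _ => ?_
    have := h4_hasSum_exp G (h4_A p • ((j : ℝ) +ᵥ z))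
    rwa [hq j] at this
  have hsum2 : HasSum (fun m : ℕ => a m * t ^ m * (if p ∣ m then (p : ℂ) else 0))
      (∑ j ∈ Finset.range p, G (h4_A p • ((j : ℝ) +ᵥ z))) := by
    convert hsum using 2 with m
    rw [← h4_sum_root m, Finset.mul_sum]
    refine Finset.sum_congr rfl fun j _ => ?_
    rw [mul_pow]
    ring
  have hinj : Function.Injective (fun n : ℕ => p * n) :=
    fun x y h => Nat.eq_of_mul_eq_mul_left hp.pos h
  have hsum3 : HasSum ((fun m : ℕ => a m * t ^ m * (if p ∣ m then (p : ℂ) else 0)) ∘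
      (fun n : ℕ => p * n)) (∑ j ∈ Finset.range p, G (h4_A p • ((j : ℝ) +ᵥ z))) := by
    rw [hinj.hasSum_iff]
    · exact hsum2
    · intro m hm
      have : ¬ p ∣ m := fun ⟨n, hn⟩ => hm ⟨n, hn.symm⟩
      simp [this]
  have htp : t ^ p = Complex.exp (2 * π * Complex.I * z) := by
    rw [ht, ← Complex.exp_nat_mul]
    congr 1
    field_simp
  have hsum4 : HasSum (fun n : ℕ => (p : ℂ) * (a (p * n) * Complex.exp (2 * π * Complex.I * z) ^ n))
      (∑ j ∈ Finset.range p, G (h4_A p • ((j : ℝ) +ᵥ z))) := by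
    convert hsum3 using 2 with n
    simp only [Function.comp_apply, dvd_mul_right, if_true]
    rw [pow_mul, htp]
    ring
  have hval : ((⇑G) ∣[(2 : ℤ)] h4_W p) z =
      -((p : ℂ)⁻¹ * ∑ j ∈ Finset.range p, G (h4_A p • ((j : ℝ) +ᵥ z))) :=
    eq_neg_of_add_eq_zero_left htr
  rw [hval]
  have h5 := (hsum4.mul_left ((p : ℂ)⁻¹)).neg
  simp only [inv_mul_cancel_left₀ hpC] at h5
  exact h5

/-- **The conjugates in weight two**: for `G ∈ M₂(Γ₀(p))` with `q`-expansion `∑ aₙ qⁿ`,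
`(G ∣[2] S T^j)(z) = -(1/p) ∑ a_{pn} exp (2 π i n (z + j) / p)`. -/
theorem h4_slash_ST (p : ℕ) [Fact p.Prime]
    (G : ModularForm ((Gamma0 p : Subgroup SL(2, ℤ)) : Subgroup (GL (Fin 2) ℝ)) 2)
    (j : ℕ) (z : ℍ) :
    HasSum (fun n : ℕ => -(1 / (p : ℂ)) * (qExpansion 1 G).coeff (p * n) *
        Complex.exp (2 * π * Complex.I * n * ((z : ℂ) + j) / p))
      (((⇑G) ∣[(2 : ℤ)] (ModularGroup.S * ModularGroup.T ^ j : SL(2, ℤ))) z) := by
  have hpC : (p : ℂ) ≠ 0 := h4_p_ne p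
  rw [h4_slash_ST_apply, h4_slash_S_eq p]
  have h := (h4_fricke_hasSum G (h4_A p • ((j : ℝ) +ᵥ z))).mul_left ((p : ℂ)⁻¹)
  rw [h4_coe_A_vadd] at h
  have he : ∀ n : ℕ, Complex.exp (2 * π * Complex.I * (((z : ℂ) + j) / p)) ^ n =
      Complex.exp (2 * π * Complex.I * n * ((z : ℂ) + j) / p) := by
    intro n
    rw [← Complex.exp_nat_mul]
    congr 1
    ring
  simp only [he] at h
  have hfun : (fun n : ℕ => -(1 / (p : ℂ)) * (qExpansion 1 G).coeff (p * n) *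
        Complex.exp (2 * π * Complex.I * n * ((z : ℂ) + j) / p)) =
      fun n : ℕ => (p : ℂ)⁻¹ * -((qExpansion 1 G).coeff (p * n) *
        Complex.exp (2 * π * Complex.I * n * ((z : ℂ) + j) / p)) := by
    funext n
    ring
  rw [hfun]
  exact h

/-- The same, in terms of `ζ = exp (2 π i / p)` and `t = exp (2 π i z / p)`. -/
theorem h4_slash_ST' (p : ℕ) [Fact p.Prime]
    (G : ModularForm ((Gamma0 p : Subgroup SL(2, ℤ)) : Subgroup (GL (Fin 2) ℝ)) 2)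
    (j : ℕ) (z : ℍ) :
    HasSum (fun n : ℕ => (-(1 / (p : ℂ)) * (qExpansion 1 G).coeff (p * n) *
        Complex.exp (2 * π * Complex.I / p) ^ (j * n)) *
        Function.Periodic.qParam (p : ℝ) z ^ n)
      (((⇑G) ∣[(2 : ℤ)] (ModularGroup.S * ModularGroup.T ^ j : SL(2, ℤ))) z) := by
  have hpC : (p : ℂ) ≠ 0 := h4_p_ne p
  have hfun : (fun n : ℕ => (-(1 / (p : ℂ)) * (qExpansion 1 G).coeff (p * n) *
        Complex.exp (2 * π * Complex.I / p) ^ (j * n)) *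
        Function.Periodic.qParam (p : ℝ) z ^ n) =
      fun n : ℕ => -(1 / (p : ℂ)) * (qExpansion 1 G).coeff (p * n) *
        Complex.exp (2 * π * Complex.I * n * ((z : ℂ) + j) / p) := by
    funext n
    have h1 : Complex.exp (2 * π * Complex.I / p) ^ (j * n) *
        Function.Periodic.qParam (p : ℝ) z ^ n =
        Complex.exp (2 * π * Complex.I * n * ((z : ℂ) + j) / p) := by
      rw [Function.Periodic.qParam, ← Complex.exp_nat_mul, ← Complex.exp_nat_mul,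
        ← Complex.exp_add]
      congr 1
      push_cast
      field_simp
      ring
    rw [mul_assoc, h1]
  rw [hfun]
  exact h4_slash_ST p G j z

/-- Every conjugate of `G ∈ M₂(Γ₀(p))`: either `G` itself, or given by the expansion above. -/
theorem h4_conj (p : ℕ) [Fact p.Prime]
    (G : ModularForm ((Gamma0 p : Subgroup SL(2, ℤ)) : Subgroup (GL (Fin 2) ℝ)) 2)
    (γ : SL(2, ℤ)) :
    (γ ∈ Gamma0 p ∧ (⇑G) ∣[(2 : ℤ)] γ = ⇑G) ∨ ∃ j : ℕ, j < p ∧ ∀ z : ℍ,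
      HasSum (fun n : ℕ => (-(1 / (p : ℂ)) * (qExpansion 1 G).coeff (p * n) *
        Complex.exp (2 * π * Complex.I / p) ^ (j * n)) *
        Function.Periodic.qParam (p : ℝ) z ^ n) (((⇑G) ∣[(2 : ℤ)] γ) z) := by
  rcases h4_slash_cases G γ with h | ⟨j, hj, h⟩
  · exact Or.inl h
  · refine Or.inr ⟨j, hj, fun z => ?_⟩
    rw [h]
    exact h4_slash_ST' p G j z

end Trace

end Fermat.Agent.S16x.Conj.H4
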