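import Mathlib
import Fermat.Agent.S16x.Conj.H9_Coset
import Fermat.Agent.S16x.Conj.H3_Final

/-!
# S16, package [CONJ]: the trace of a weight-2 form on `Γ₀(p)` to level one is zero (helper9)

For `F ∈ M₂(Γ₀(p))` the sum of the `p + 1` conjugates `cj p 2 F x`, `x : OnePoint (ZMod p)`, is a
modular form of weight `2` and level one (`S23.esymmMF F 1`, with `stCoset` for `i = 1`), hence
zero.  We give the statement pointwise, as functions, split at `∞`, and for the `t`-expansions.
-/

set_option autoImplicit false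

open UpperHalfPlane ModularForm CongruenceSubgroup

open scoped MatrixGroups ModularForm Manifold

noncomputable section

namespace Fermat.Agent.S16x.Conj.H9

/-- A level-one modular form of weight `2` is zero (any weight propositionally equal to `2`). -/
theorem h9_levelOne_weight_two_eq_zero {k : ℤ} (hk : k = 2) (f : ModularForm 𝒮ℒ k) : f = 0 := by
  subst hk
  have h := ModularForm.levelOne_weight_two_rank_zero
  rw [rank_zero_iff_forall_zero] at h
  exact h f

/-- The first elementary symmetric function of the conjugates is the plain sum. -/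
theorem h9_esymm_one_eq_sum (p : ℕ) [Fact p.Prime] (k : ℤ) (f : ModularForm (Gamma0 p) k) :
    (⇑(Fermat.Agent.S23.esymmMF f 1) : ℍ → ℂ) = ∑ x : OnePoint (ZMod p), cj p k f x := by
  rw [stCoset p k f 1, Finset.powersetCard_one, Finset.sum_map]
  simp

/-- **Trace zero**, as functions: the sum of the `p + 1` conjugates of a weight-2 form on
`Γ₀(p)` vanishes. -/
theorem h9_trace_zero_fun (p : ℕ) [Fact p.Prime] (F : ModularForm (Gamma0 p) 2) :
    ∑ x : OnePoint (ZMod p), cj p 2 F x = 0 := by
  rw [← h9_esymm_one_eq_sum p 2 F,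
    h9_levelOne_weight_two_eq_zero (by norm_num) (Fermat.Agent.S23.esymmMF F 1)]
  rfl

/-- **Trace zero**, pointwise (helper3's cut #888). -/
theorem h9_trace_zero (p : ℕ) [Fact p.Prime] (F : ModularForm (Gamma0 p) 2) (z : ℍ) :
    ∑ x : OnePoint (ZMod p), cj p 2 F x z = 0 := by
  have h := congrFun (h9_trace_zero_fun p F) z
  simpa [Finset.sum_apply] using h

/-- Sums over `OnePoint (ZMod p)` split off the point at `∞`. -/
theorem h9_sum_onePoint (p : ℕ) [NeZero p] {M : Type*} [AddCommMonoid M]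
    (g : OnePoint (ZMod p) → M) :
    ∑ x : OnePoint (ZMod p), g x = g OnePoint.infty + ∑ j : ZMod p, g (OnePoint.some j) :=
  Fintype.sum_option g

/-- **Trace zero**, split at `∞`: `F z + ∑_j (F ∣[2] S T^j) z = 0`. -/
theorem h9_trace_zero_split (p : ℕ) [Fact p.Prime] (F : ModularForm (Gamma0 p) 2) (z : ℍ) :
    F z + ∑ j : ZMod p, cj p 2 F (OnePoint.some j) z = 0 := by
  have : NeZero p := ⟨(Fact.out : p.Prime).ne_zero⟩
  have h := h9_trace_zero p F z
  rw [h9_sum_onePoint p (fun x => cj p 2 F x z)] at h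
  have h0 : cj p 2 F (OnePoint.infty) z = F z := by
    rw [H3.h3_cj_infty]
  rwa [h0] at h

/-- **Trace zero**, explicit slash form: `F z + ∑_j (F ∣[2] (S * T^j)) z = 0`. -/
theorem h9_trace_zero_slash (p : ℕ) [Fact p.Prime] (F : ModularForm (Gamma0 p) 2) (z : ℍ) :
    F z + ∑ j : ZMod p, ((⇑F : ℍ → ℂ) ∣[(2 : ℤ)] (ModularGroup.S * ModularGroup.T ^ j.val)) z
      = 0 :=
  h9_trace_zero_split p F z

/-- **Trace zero** for the `t`-expansions: `∑_x tExp p (cj p 2 F x) = 0`. -/
theorem h9_trace_zero_tExp (p : ℕ) [Fact p.Prime] (F : ModularForm (Gamma0 p) 2) :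
    ∑ x : OnePoint (ZMod p), tExp p (cj p 2 F x) = 0 := by
  have hp : 0 < p := (Fact.out : p.Prime).pos
  rw [← H3.h3_tExp_sum hp Finset.univ (fun x => cj p 2 F x) (fun x _ => H3.stNice p 2 F x),
    h9_trace_zero_fun p F]
  exact H3.h3_tExp_zero

/-- **Trace zero** for the `t`-expansions, split at `∞`:
`expand p (qExpansion 1 F) + ∑_j tExp p (F ∣ S T^j) = 0`. -/
theorem h9_trace_zero_tExp_split (p : ℕ) [Fact p.Prime] (F : ModularForm (Gamma0 p) 2) :
    PowerSeries.expand p (Fact.out : p.Prime).ne_zero (UpperHalfPlane.qExpansion 1 F) +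
      ∑ j : ZMod p, tExp p (cj p 2 F (OnePoint.some j)) = 0 := by
  have : NeZero p := ⟨(Fact.out : p.Prime).ne_zero⟩
  have h := h9_trace_zero_tExp p F
  rw [h9_sum_onePoint p (fun x => tExp p (cj p 2 F x)), H3.stInfty p 2 F] at h
  exact h

end Fermat.Agent.S16x.Conj.H9
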