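import Mathlib
import Fermat.Agent.S16x.Conj.H9_Trace
import Fermat.Agent.S16x.Conj.H22_Push
import Fermat.Agent.S16x.Conj.H28_Two

/-!
# S16, package [CONJ], leaf [C7] `StTwo` (helper9)

For `G ∈ M₂(Γ₀(p))` with `q`-expansion `∑ a_n q^n`, the conjugates are
`(G ∣[2] S T^j)(z) = -(1/p) ∑ a_{p n} ζ^{j n} t^n`, `t = exp (2 π i z / p)`.

Proof: `H := G ∣[2] W`, `W = S · diag(p, 1)`, is again in `M₂(Γ₀(p))`; one has
`(G ∣ S T^j)(z) = p⁻¹ H((z + j)/p)` and `(H ∣ S T^i)(z) = p⁻¹ G((z + i)/p)`; the trace of `H` to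
level one vanishes (`h9_trace_zero_slash`), so `H(z) = -p⁻¹ ∑_i G((z + i)/p) = -∑ a_{p n} q^n`.
-/

set_option autoImplicit false

open UpperHalfPlane ModularForm CongruenceSubgroup Function

open scoped MatrixGroups ModularForm Manifold Pointwise

noncomputable section

namespace Fermat.Agent.S16x.Conj.H9

/-! ### The matrix `W = S · diag(p, 1)` and the form `G ∣ W` -/

/-- `W = S · diag(p, 1) = [0, -1; p, 0]`. -/
def h9_wMat (p : ℕ) : GL (Fin 2) ℝ :=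
  Matrix.SpecialLinearGroup.mapGL ℝ ModularGroup.S * heckeDiagMatrix p

/-- For `γ = [a, b; c, d] ∈ Γ₀(p)`, `S [a, p b; c/p, d] S⁻¹ = [d, -c/p; -p b, a] ∈ Γ₀(p)`. -/
theorem h9_S_conj_mem (p : ℕ) (γ : SL(2, ℤ)) (e : ℤ) (he : γ 1 0 = p * e) :
    ModularGroup.S * Fermat.Agent.S23.conjSL p γ e he * ModularGroup.S⁻¹ ∈ Gamma0 p := by
  rw [Gamma0_mem]
  have h10 : (ModularGroup.S * Fermat.Agent.S23.conjSL p γ e he * ModularGroup.S⁻¹) 1 0
      = -((p : ℤ) * γ 0 1) := by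
    rw [Matrix.SpecialLinearGroup.coe_mul, Matrix.SpecialLinearGroup.coe_mul,
      Matrix.SpecialLinearGroup.coe_inv, ModularGroup.coe_S]
    have e01 : (Fermat.Agent.S23.conjSL p γ e he) 0 1 = p * γ 0 1 := rfl
    simp [Matrix.mul_apply, Fin.sum_univ_two, Matrix.adjugate_fin_two, Matrix.vecMul,
      dotProduct, e01]
  rw [h10]
  simp

theorem h9_map_gamma0_le_conj (p : ℕ) [NeZero p] :
    Subgroup.map (Matrix.SpecialLinearGroup.mapGL ℝ) (Gamma0 p) ≤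
      ConjAct.toConjAct (h9_wMat p)⁻¹ •
        Subgroup.map (Matrix.SpecialLinearGroup.mapGL ℝ) (Gamma0 p) := by
  rintro _ ⟨γ, hγ, rfl⟩
  rw [map_inv, Subgroup.mem_inv_pointwise_smul_iff, ConjAct.toConjAct_smul]
  have hγ' : ((γ 1 0 : ℤ) : ZMod p) = 0 := Gamma0_mem.mp hγ
  obtain ⟨e, he⟩ := (ZMod.intCast_zmod_eq_zero_iff_dvd _ _).mp hγ'
  refine ⟨ModularGroup.S * Fermat.Agent.S23.conjSL p γ e he * ModularGroup.S⁻¹,
    h9_S_conj_mem p γ e he, ?_⟩
  unfold h9_wMat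
  rw [mul_assoc (Matrix.SpecialLinearGroup.mapGL ℝ ModularGroup.S),
    Fermat.Agent.S23.heckeDiagMatrix_mul_mapGL p γ e he, map_mul, map_mul, map_inv]
  group

/-- `H = G ∣[2] W` as a modular form on `Γ₀(p)`. -/
def h9_wForm (p : ℕ) [NeZero p] {k : ℤ} (G : ModularForm (Gamma0 p) k) :
    ModularForm (Gamma0 p) k :=
  Fermat.Agent.S23.levelMF (h9_map_gamma0_le_conj p) (ModularForm.translate G (h9_wMat p))

theorem h9_coe_wForm (p : ℕ) [NeZero p] {k : ℤ} (G : ModularForm (Gamma0 p) k) :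
    (⇑(h9_wForm p G) : ℍ → ℂ) = (⇑G : ℍ → ℂ) ∣[k] h9_wMat p := by
  unfold h9_wForm
  rw [Fermat.Agent.S23.coe_levelMF, ModularForm.coe_translate]

/-! ### The two pointwise identities -/

theorem h9_diag_smul_heckeMatrix_smul {p : ℕ} (hp : p ≠ 0) (j : ℕ) (z : ℍ) :
    heckeDiagMatrix p • (heckeMatrix p j • z) = (j : ℝ) +ᵥ z := by
  have hp' : (p : ℂ) ≠ 0 := by exact_mod_cast hp
  apply UpperHalfPlane.ext
  rw [coe_heckeDiagMatrix_smul hp, coe_heckeMatrix_smul hp, UpperHalfPlane.coe_vadd]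
  push_cast
  field_simp
  ring

/-- `(G ∣[k] S T^j)(z) = p^(k-2) · (G ∣ W)((z + j)/p)`. -/
theorem h9_slash_ST_eq (p : ℕ) [NeZero p] {k : ℤ} (G : ModularForm (Gamma0 p) k) (j : ℕ)
    (z : ℍ) :
    (p : ℂ) ^ (k - 1) * ((⇑G : ℍ → ℂ) ∣[k] (ModularGroup.S * ModularGroup.T ^ j)) z =
      h9_wForm p G (heckeMatrix p j • z) := by
  have hp : p ≠ 0 := NeZero.ne p
  have e1 : (⇑G : ℍ → ℂ) ∣[k] (ModularGroup.S * ModularGroup.T ^ j) =
      ((⇑G : ℍ → ℂ) ∣[k] ModularGroup.S) ∣[k] (ModularGroup.T ^ j) :=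
    SlashAction.slash_mul k _ _ _
  have e2 : (⇑G : ℍ → ℂ) ∣[k] h9_wMat p =
      ((⇑G : ℍ → ℂ) ∣[k] ModularGroup.S) ∣[k] heckeDiagMatrix p := by
    unfold h9_wMat
    rw [SlashAction.slash_mul]
    rfl
  rw [e1, H3.h3_slash_T_pow, h9_coe_wForm, e2, slash_heckeDiagMatrix_apply k hp,
    h9_diag_smul_heckeMatrix_smul hp]

theorem h9_S_mul_S_mem (p : ℕ) : ModularGroup.S * ModularGroup.S ∈ Gamma0 p := by
  rw [Gamma0_mem]
  have h10 : (ModularGroup.S * ModularGroup.S) 1 0 = 0 := by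
    rw [Matrix.SpecialLinearGroup.coe_mul, ModularGroup.coe_S]
    simp [Matrix.mul_apply, Fin.sum_univ_two]
  rw [h10]
  simp

/-- `((G ∣ W) ∣[k] S T^i)(z) = p⁻¹ G((z + i)/p)`. -/
theorem h9_wForm_slash_ST_eq (p : ℕ) [NeZero p] {k : ℤ} (G : ModularForm (Gamma0 p) k) (i : ℕ)
    (z : ℍ) :
    ((⇑(h9_wForm p G) : ℍ → ℂ) ∣[k] (ModularGroup.S * ModularGroup.T ^ i)) z =
      (p : ℂ)⁻¹ * G (heckeMatrix p i • z) := by
  have hp : p ≠ 0 := NeZero.ne p
  have e0 : ∀ (g : ℍ → ℂ) (γ : SL(2, ℤ)),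
      g ∣[k] γ = g ∣[k] (Matrix.SpecialLinearGroup.mapGL ℝ γ) := fun _ _ => rfl
  have e1 : h9_wMat p * Matrix.SpecialLinearGroup.mapGL ℝ (ModularGroup.S * ModularGroup.T ^ i)
      = Matrix.SpecialLinearGroup.mapGL ℝ (ModularGroup.S * ModularGroup.S) *
          heckeMatrix p i := by
    unfold h9_wMat
    rw [mul_assoc, H22.heckeDiag_mul_ST hp, ← mul_assoc, ← map_mul]
  have e2 : (⇑G : ℍ → ℂ) ∣[k]
      (Matrix.SpecialLinearGroup.mapGL ℝ (ModularGroup.S * ModularGroup.S)) = ⇑G :=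
    SlashInvariantForm.slash_action_eqn G _ ⟨_, h9_S_mul_S_mem p, rfl⟩
  rw [h9_coe_wForm, e0, ← SlashAction.slash_mul, e1, SlashAction.slash_mul, e2,
    slash_heckeMatrix_apply k hp]

/-! ### Roots of unity -/

theorem h9_zeta_isPrimitiveRoot (p : ℕ) (hp : p ≠ 0) : IsPrimitiveRoot (zeta p) p := by
  unfold zeta
  exact Complex.isPrimitiveRoot_exp p hp

theorem h9_sum_zmod_val (p : ℕ) [NeZero p] {M : Type*} [AddCommMonoid M] (f : ℕ → M) :
    ∑ i : ZMod p, f i.val = ∑ i ∈ Finset.range p, f i := by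
  refine Finset.sum_bij (fun i _ => i.val) ?_ ?_ ?_ ?_
  · intro i _
    exact Finset.mem_range.mpr (ZMod.val_lt i)
  · intro i _ j _ hij
    exact ZMod.val_injective p hij
  · intro i hi
    exact ⟨(i : ZMod p), Finset.mem_univ _, ZMod.val_cast_of_lt (Finset.mem_range.mp hi)⟩
  · intro i _
    rfl

/-- Orthogonality: `∑_{i mod p} ζ^{i n} = p` if `p ∣ n`, and `0` otherwise. -/
theorem h9_sum_zeta (p : ℕ) [NeZero p] (n : ℕ) :
    ∑ i : ZMod p, (zeta p ^ i.val) ^ n = if p ∣ n then (p : ℂ) else 0 := by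
  have hp : p ≠ 0 := NeZero.ne p
  have hprim := h9_zeta_isPrimitiveRoot p hp
  rw [h9_sum_zmod_val p (fun i => (zeta p ^ i) ^ n)]
  have e : ∀ i : ℕ, (zeta p ^ i) ^ n = (zeta p ^ n) ^ i := fun i => by
    rw [← pow_mul, ← pow_mul, mul_comm]
  simp only [e]
  split_ifs with hdvd
  · have h1 : zeta p ^ n = 1 := (hprim.pow_eq_one_iff_dvd n).mpr hdvd
    simp [h1]
  · have h1 : zeta p ^ n ≠ 1 := fun h => hdvd ((hprim.pow_eq_one_iff_dvd n).mp h)
    have h2 : (zeta p ^ n) ^ p = 1 := by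
      rw [← pow_mul, mul_comm, pow_mul, hprim.pow_eq_one, one_pow]
    have h3 := mul_geom_sum (zeta p ^ n) p
    rw [h2, sub_self] at h3
    rcases mul_eq_zero.mp h3 with h | h
    · exact absurd (sub_eq_zero.mp h) h1
    · exact h

/-! ### The expansions -/

section Main

variable (p : ℕ) [Fact p.Prime]

theorem h9_nice {k : ℤ} (G : ModularForm (Gamma0 p) k) : Nice p (⇑G : ℍ → ℂ) := by
  have h := H3.stNice p k G OnePoint.infty
  rwa [H3.h3_cj_infty] at h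

/-- The `q`-expansion of a form on `Γ₀(p)` as a `HasSum`. -/
theorem h9_hasSum_at {k : ℤ} (G : ModularForm (Gamma0 p) k) (w : ℍ) :
    HasSum (fun n : ℕ => (UpperHalfPlane.qExpansion 1 G).coeff n •
      Function.Periodic.qParam (1 : ℝ) (w : ℂ) ^ n) (G w) :=
  UpperHalfPlane.hasSum_qExpansion (h := (1 : ℝ)) one_pos (H3.h3_periodic_one p G)
    (h9_nice p G).2.1 (h9_nice p G).2.2 w

/-- The expansion of `G((z + i)/p)` in `t = 𝕢 p z`. -/
theorem h9_hasSum_heckeMatrix {k : ℤ} (G : ModularForm (Gamma0 p) k) (i : ℕ) (z : ℍ) :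
    HasSum (fun n : ℕ => (UpperHalfPlane.qExpansion 1 G).coeff n * (zeta p ^ i) ^ n *
      Function.Periodic.qParam (p : ℝ) (z : ℂ) ^ n) (G (heckeMatrix p i • z)) := by
  have h := h9_hasSum_at p G (heckeMatrix p i • z)
  rw [H22.qParam_heckeMatrix_smul] at h
  have e : (fun n : ℕ => (UpperHalfPlane.qExpansion 1 G).coeff n * (zeta p ^ i) ^ n *
      Function.Periodic.qParam (p : ℝ) (z : ℂ) ^ n) =
      fun n : ℕ => (UpperHalfPlane.qExpansion 1 G).coeff n •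
        (Function.Periodic.qParam (p : ℝ) (z : ℂ) * zeta p ^ i) ^ n := by
    funext n
    simp only [smul_eq_mul]
    rw [mul_pow]
    ring
  rw [e]
  exact h

/-- `H = G ∣ W` has the expansion `-∑_{p ∣ n} a_n t^n` in `t = 𝕢 p z`. -/
theorem h9_wForm_hasSum (G : ModularForm (Gamma0 p) 2) (z : ℍ) :
    haveI : NeZero p := ⟨(Fact.out : p.Prime).ne_zero⟩
    HasSum (fun n : ℕ => (if p ∣ n then -(UpperHalfPlane.qExpansion 1 G).coeff n else 0) *
      Function.Periodic.qParam (p : ℝ) (z : ℂ) ^ n) (h9_wForm p G z) := by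
  have : NeZero p := ⟨(Fact.out : p.Prime).ne_zero⟩
  have hp : p ≠ 0 := (Fact.out : p.Prime).ne_zero
  have hp' : (p : ℂ) ≠ 0 := by exact_mod_cast hp
  have htr := h9_trace_zero_slash p (h9_wForm p G) z
  have hH : h9_wForm p G z = -∑ i : ZMod p, (p : ℂ)⁻¹ * G (heckeMatrix p i.val • z) := by
    have e : ∀ i : ZMod p, ((⇑(h9_wForm p G) : ℍ → ℂ) ∣[(2 : ℤ)]
        (ModularGroup.S * ModularGroup.T ^ i.val)) z =
        (p : ℂ)⁻¹ * G (heckeMatrix p i.val • z) :=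
      fun i => h9_wForm_slash_ST_eq p G i.val z
    simp only [e] at htr
    exact eq_neg_of_add_eq_zero_left htr
  rw [hH]
  have hsum : HasSum (fun n : ℕ => ∑ i : ZMod p, (p : ℂ)⁻¹ *
      ((UpperHalfPlane.qExpansion 1 G).coeff n * (zeta p ^ i.val) ^ n *
        Function.Periodic.qParam (p : ℝ) (z : ℂ) ^ n))
      (∑ i : ZMod p, (p : ℂ)⁻¹ * G (heckeMatrix p i.val • z)) :=
    hasSum_sum fun i _ => (h9_hasSum_heckeMatrix p G i.val z).mul_left _
  have hneg := hsum.neg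
  have e : (fun n : ℕ => (if p ∣ n then -(UpperHalfPlane.qExpansion 1 G).coeff n else 0) *
      Function.Periodic.qParam (p : ℝ) (z : ℂ) ^ n) =
      fun n : ℕ => -∑ i : ZMod p, (p : ℂ)⁻¹ *
        ((UpperHalfPlane.qExpansion 1 G).coeff n * (zeta p ^ i.val) ^ n *
          Function.Periodic.qParam (p : ℝ) (z : ℂ) ^ n) := by
    funext n
    have e1 : ∑ i : ZMod p, (p : ℂ)⁻¹ *
        ((UpperHalfPlane.qExpansion 1 G).coeff n * (zeta p ^ i.val) ^ n *
          Function.Periodic.qParam (p : ℝ) (z : ℂ) ^ n) =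
        (p : ℂ)⁻¹ * (UpperHalfPlane.qExpansion 1 G).coeff n *
          Function.Periodic.qParam (p : ℝ) (z : ℂ) ^ n * ∑ i : ZMod p, (zeta p ^ i.val) ^ n := by
      rw [Finset.mul_sum]
      refine Finset.sum_congr rfl fun i _ => ?_
      ring
    rw [e1, h9_sum_zeta p n]
    split_ifs with hdvd
    · field_simp
    · simp
  rw [e]
  exact hneg

/-- The `q`-expansion of `H = G ∣ W` is `-∑ a_{p n} q^n` (`H = -U_p G`). -/
theorem h9_wForm_coeff (G : ModularForm (Gamma0 p) 2) (n : ℕ) :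
    haveI : NeZero p := ⟨(Fact.out : p.Prime).ne_zero⟩
    (UpperHalfPlane.qExpansion 1 (h9_wForm p G)).coeff n =
      -(UpperHalfPlane.qExpansion 1 G).coeff (p * n) := by
  have : NeZero p := ⟨(Fact.out : p.Prime).ne_zero⟩
  have hp : p ≠ 0 := (Fact.out : p.Prime).ne_zero
  have h1 := H28.h28_tExp_eq_mk (Nat.pos_of_ne_zero hp) (h9_nice p (h9_wForm p G))
    (fun n : ℕ => if p ∣ n then -(UpperHalfPlane.qExpansion 1 G).coeff n else 0)
    (h9_wForm_hasSum p G)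
  have h2 := H3.stInfty p 2 (h9_wForm p G)
  rw [H3.h3_cj_infty, h1] at h2
  have h3 := congrArg (PowerSeries.coeff (p * n)) h2
  rw [PowerSeries.coeff_mk, PowerSeries.coeff_expand_mul, if_pos (dvd_mul_right p n)] at h3
  exact h3.symm

/-- **The conjugates in weight `2`**, as a `HasSum` (helper28's shape `h28_stTwo_of_qParam`). -/
theorem h9_slash_ST_hasSum (G : ModularForm (Gamma0 p) 2) (j : ℕ) (z : ℍ) :
    HasSum (fun n : ℕ => -(1 / (p : ℂ)) * (UpperHalfPlane.qExpansion 1 G).coeff (p * n) *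
        zeta p ^ (j * n) * Function.Periodic.qParam (p : ℝ) (z : ℂ) ^ n)
      (((⇑G : ℍ → ℂ) ∣[(2 : ℤ)] (ModularGroup.S * ModularGroup.T ^ j)) z) := by
  have : NeZero p := ⟨(Fact.out : p.Prime).ne_zero⟩
  have hp : p ≠ 0 := (Fact.out : p.Prime).ne_zero
  have hp' : (p : ℂ) ≠ 0 := by exact_mod_cast hp
  have h1 := h9_slash_ST_eq p G j z
  have h2 : ((⇑G : ℍ → ℂ) ∣[(2 : ℤ)] (ModularGroup.S * ModularGroup.T ^ j)) z =
      (p : ℂ)⁻¹ * h9_wForm p G (heckeMatrix p j • z) := by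
    rw [← h1]
    norm_num
    field_simp
  rw [h2]
  have h3 := (h9_hasSum_heckeMatrix p (h9_wForm p G) j z).mul_left ((p : ℂ)⁻¹)
  have e : (fun n : ℕ => -(1 / (p : ℂ)) * (UpperHalfPlane.qExpansion 1 G).coeff (p * n) *
        zeta p ^ (j * n) * Function.Periodic.qParam (p : ℝ) (z : ℂ) ^ n) =
      fun n : ℕ => (p : ℂ)⁻¹ * ((UpperHalfPlane.qExpansion 1 (h9_wForm p G)).coeff n *
        (zeta p ^ j) ^ n * Function.Periodic.qParam (p : ℝ) (z : ℂ) ^ n) := by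
    funext n
    rw [h9_wForm_coeff p G n, ← pow_mul]
    ring
  rw [e]
  exact h3

/-- **[C7]** `StTwo p`, VERBATIM `Conj/Defs`. -/
theorem stTwo : StTwo p :=
  H28.h28_stTwo_of_qParam p (h9_slash_ST_hasSum p)

end Main

end Fermat.Agent.S16x.Conj.H9
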